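/-
Lib/Unif (architect helper33): complex uniformisation of elliptic curves and analytic Velu.
File `Basic`: first derivative of `℘`, periodicity, complements of countable sets.  Mathlib only.
-/
import Mathlib

set_option autoImplicit false

noncomputable section

namespace Fermat.Agent.Lib.Unif

open Filter Topology

variable (L : PeriodPair)

/-- `℘''` expressed through `℘`. -/
def wp2 (z : ℂ) : ℂ := 6 * L.weierstrassP z ^ 2 - L.g₂ / 2

theorem countable_lattice : (L.lattice : Set ℂ).Countable := by
  have : Countable L.lattice := L.latticeEquivProd.toEquiv.countable_iff.2 inferInstance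
  exact Set.countable_coe_iff.1 this

/-- the complement of a countable subset of `ℂ` is preconnected
(`Set.Countable.isPathConnected_compl_of_one_lt_rank`). -/
theorem isPreconnected_compl_of_countable {s : Set ℂ} (hs : s.Countable) : IsPreconnected sᶜ := by
  refine (hs.isPathConnected_compl_of_one_lt_rank (E := ℂ) ?_).isConnected.isPreconnected
  rw [Complex.rank_real_complex]
  exact Nat.one_lt_ofNat

theorem hasDerivAt_wp {z : ℂ} (hz : z ∉ L.lattice) :
    HasDerivAt L.weierstrassP (L.derivWeierstrassP z) z := by
  have h1 : DifferentiableAt ℂ L.weierstrassP z :=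
    (L.analyticOnNhd_weierstrassP z hz).differentiableAt
  have h2 := h1.hasDerivAt
  rwa [L.deriv_weierstrassP] at h2

theorem neg_mem_lattice_iff {z : ℂ} : -z ∈ L.lattice ↔ z ∈ L.lattice := by
  exact neg_mem_iff

/-- translation invariance by lattice elements given as complex numbers. -/
theorem wp_add_of_mem (z : ℂ) {l : ℂ} (hl : l ∈ L.lattice) :
    L.weierstrassP (z + l) = L.weierstrassP z := by
  exact L.weierstrassP_add_coe z ⟨l, hl⟩

theorem wp'_add_of_mem (z : ℂ) {l : ℂ} (hl : l ∈ L.lattice) :
    L.derivWeierstrassP (z + l) = L.derivWeierstrassP z := by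
  exact L.derivWeierstrassP_add_coe z ⟨l, hl⟩

/-- `℘` and `℘'` only depend on the class modulo the lattice. -/
theorem wp_congr {z w : ℂ} (h : z - w ∈ L.lattice) : L.weierstrassP z = L.weierstrassP w := by
  have h1 := wp_add_of_mem L w h
  rwa [add_sub_cancel] at h1

theorem wp'_congr {z w : ℂ} (h : z - w ∈ L.lattice) :
    L.derivWeierstrassP z = L.derivWeierstrassP w := by
  have h1 := wp'_add_of_mem L w h
  rwa [add_sub_cancel] at h1

end Fermat.Agent.Lib.Unif

end
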