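/-
Lib/Unif (architect helper33): complex uniformisation of elliptic curves and analytic Velu.
File `Deriv2`: `℘'' = 6 ℘² - g₂ / 2`.
-/
import Fermat.Agent.Lib.Unif.Basic

set_option autoImplicit false

noncomputable section

namespace Fermat.Agent.Lib.Unif

open Filter Topology

variable (L : PeriodPair)

private theorem deriv2_compl_mem_nhds {z : ℂ} (hz : z ∉ L.lattice) :
    ((L.lattice : Set ℂ))ᶜ ∈ 𝓝 z :=
  L.isClosed_lattice.isOpen_compl.mem_nhds hz

/-- `℘'` is not identically zero near any point off the lattice (otherwise, by the identity theorem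
on the preconnected open set `Λᶜ`, `℘' = 0` on `Λᶜ`, so `℘` is constant there, contradicting
`PeriodPair.order_weierstrassP` / `not_continuousAt_weierstrassP`). -/
theorem not_eventually_wp'_eq_zero {z : ℂ} (hz : z ∉ L.lattice) :
    ¬ ∀ᶠ t in 𝓝 z, L.derivWeierstrassP t = 0 := by
  classical
  intro h
  have hpre : IsPreconnected ((L.lattice : Set ℂ))ᶜ :=
    isPreconnected_compl_of_countable (countable_lattice L)
  have h0 : Set.EqOn L.derivWeierstrassP 0 ((L.lattice : Set ℂ))ᶜ :=
    L.analyticOnNhd_derivWeierstrassP.eqOn_zero_of_preconnected_of_eventuallyEq_zero hpre hz h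
  obtain ⟨a, ha⟩ := L.isClosed_lattice.isOpen_compl.exists_is_const_of_deriv_eq_zero hpre
    L.differentiableOn_weierstrassP (by rw [L.deriv_weierstrassP]; exact h0)
  have hord := L.order_weierstrassP 0 (L.lattice.zero_mem)
  have hcongr : L.weierstrassP =ᶠ[𝓝[≠] (0 : ℂ)] fun _ => a := by
    have h1 : ∀ᶠ t in 𝓝[≠] (0 : ℂ), t ∈ ((L.lattice : Set ℂ) \ {0})ᶜ :=
      mem_nhdsWithin_of_mem_nhds (L.compl_lattice_sdiff_singleton_mem_nhds 0)
    filter_upwards [h1, self_mem_nhdsWithin] with t ht ht0
    refine ha t fun htL => ht ⟨htL, ht0⟩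
  have h2 : (-2 : WithTop ℤ) = ((-2 : ℤ) : WithTop ℤ) := by norm_num
  rw [meromorphicOrderAt_congr hcongr, meromorphicOrderAt_const, h2] at hord
  split_ifs at hord
  · exact WithTop.top_ne_coe hord
  · have h3 : ((0 : ℤ) : WithTop ℤ) = ((-2 : ℤ) : WithTop ℤ) := hord
    exact absurd (WithTop.coe_injective h3) (by decide)

/-- differentiating the differential equation `PeriodPair.derivWeierstrassP_sq`. -/
theorem wp'_mul_deriv_sub {z : ℂ} (hz : z ∉ L.lattice) :
    L.derivWeierstrassP z * (deriv L.derivWeierstrassP z - wp2 L z) = 0 := by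
  have hd : HasDerivAt L.derivWeierstrassP (deriv L.derivWeierstrassP z) z :=
    ((L.analyticOnNhd_derivWeierstrassP z hz).differentiableAt).hasDerivAt
  have hp := hasDerivAt_wp L hz
  have h1 := hd.pow 2
  have h2 := (((hp.pow 3).const_mul 4).sub (hp.const_mul L.g₂)).sub_const L.g₃
  have heq : (fun t => L.derivWeierstrassP t ^ 2) =ᶠ[𝓝 z]
      fun t => 4 * L.weierstrassP t ^ 3 - L.g₂ * L.weierstrassP t - L.g₃ := by
    filter_upwards [deriv2_compl_mem_nhds L hz] with t ht
    exact L.derivWeierstrassP_sq t ht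
  have h3 := (h2.congr_of_eventuallyEq heq).unique h1
  simp only [wp2]
  push_cast at h3
  linear_combination (-1 / 2 : ℂ) * h3

/-- `℘'' = 6 ℘² - g₂ / 2` (the zeros of `℘'` are isolated: `AnalyticAt.eventually_eq_zero_or_
eventually_ne_zero`; both sides are continuous). -/
theorem hasDerivAt_wp' {z : ℂ} (hz : z ∉ L.lattice) :
    HasDerivAt L.derivWeierstrassP (wp2 L z) z := by
  have han : AnalyticAt ℂ L.derivWeierstrassP z := L.analyticOnNhd_derivWeierstrassP z hz
  have hanP : AnalyticAt ℂ L.weierstrassP z := L.analyticOnNhd_weierstrassP z hz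
  have hh : AnalyticAt ℂ (fun t => deriv L.derivWeierstrassP t - wp2 L t) z := by
    refine han.deriv.sub ?_
    unfold wp2
    exact ((analyticAt_const.mul (hanP.pow 2)).sub analyticAt_const)
  have hne : ∀ᶠ t in 𝓝[≠] z, L.derivWeierstrassP t ≠ 0 :=
    (han.eventually_eq_zero_or_eventually_ne_zero).resolve_left (not_eventually_wp'_eq_zero L hz)
  have hzero : ∀ᶠ t in 𝓝[≠] z, deriv L.derivWeierstrassP t - wp2 L t = 0 := by
    filter_upwards [hne, mem_nhdsWithin_of_mem_nhds (deriv2_compl_mem_nhds L hz)] with t ht htL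
    exact (mul_eq_zero.mp (wp'_mul_deriv_sub L htL)).resolve_left ht
  have hz0 : deriv L.derivWeierstrassP z - wp2 L z = 0 := by
    rcases hh.eventually_eq_zero_or_eventually_ne_zero with h | h
    · exact h.self_of_nhds
    · exact ((hzero.and h).exists.choose_spec.2 (hzero.and h).exists.choose_spec.1).elim
  rw [← sub_eq_zero.mp hz0]
  exact han.differentiableAt.hasDerivAt

theorem hasDerivAt_wp2 {z : ℂ} (hz : z ∉ L.lattice) :
    HasDerivAt (wp2 L) (12 * L.weierstrassP z * L.derivWeierstrassP z) z := by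
  have h := (((hasDerivAt_wp L hz).pow 2).const_mul 6).sub_const (L.g₂ / 2)
  refine (h.congr_deriv ?_)
  push_cast
  ring

end Fermat.Agent.Lib.Unif

end
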