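/-
Lib/Unif (architect helper33).  File `Ode`: uniqueness for the linear second order equation
`d'' = c d` among analytic germs.  Mathlib only.
-/
import Mathlib

set_option autoImplicit false

noncomputable section

namespace Fermat.Agent.Lib.Unif

open Filter Topology

/-- all iterated derivatives of `d` vanish at `0`
(strong induction; `iteratedDeriv_succ'`, `Filter.EventuallyEq.iteratedDeriv_eq`, Leibniz rule
`iteratedDeriv_fun_mul`). -/
theorem iteratedDeriv_eq_zero_of_ode {d c : ℂ → ℂ} {a : ℂ} (hd : AnalyticAt ℂ d a)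
    (hc : AnalyticAt ℂ c a) (h : ∀ᶠ t in 𝓝 a, deriv (deriv d) t = c t * d t) (h0 : d a = 0)
    (h1 : deriv d a = 0) (n : ℕ) : iteratedDeriv n d a = 0 := by
  induction n using Nat.strong_induction_on with
  | _ n ih =>
    match n, ih with
    | 0, _ => simpa using h0
    | 1, _ => simpa using h1
    | (m + 2), ih =>
      have e : deriv (deriv d) =ᶠ[𝓝 a] c * d := h
      rw [iteratedDeriv_succ', iteratedDeriv_succ', e.iteratedDeriv_eq m,
        iteratedDeriv_mul hc.contDiffAt hd.contDiffAt]
      refine Finset.sum_eq_zero fun i _ => ?_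
      rw [ih (m - i) (by omega), mul_zero]

/-- an analytic germ with `d'' = c d`, `d a = d' a = 0` vanishes
(`natCast_le_analyticOrderAt_iff_iteratedDeriv_eq_zero`, `analyticOrderAt_eq_top`). -/
theorem eventually_eq_zero_of_ode {d c : ℂ → ℂ} {a : ℂ} (hd : AnalyticAt ℂ d a)
    (hc : AnalyticAt ℂ c a) (h : ∀ᶠ t in 𝓝 a, deriv (deriv d) t = c t * d t) (h0 : d a = 0)
    (h1 : deriv d a = 0) : ∀ᶠ t in 𝓝 a, d t = 0 := by
  rw [← analyticOrderAt_eq_top, ENat.eq_top_iff_forall_ge]
  intro n
  exact (natCast_le_analyticOrderAt_iff_iteratedDeriv_eq_zero hd).2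
    fun i _ => iteratedDeriv_eq_zero_of_ode hd hc h h0 h1 i

end Fermat.Agent.Lib.Unif

end
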