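/-
Lib/Unif (architect helper33): complex uniformisation of elliptic curves and analytic Velu.
File `Inj`: `(℘, ℘')` separates the points of `ℂ / Λ`.
-/
import Fermat.Agent.Lib.Unif.Inj.Cauchy
import Fermat.Agent.Lib.Unif.Inj.Ident
import Fermat.Agent.Lib.Unif.Inj.Period

set_option autoImplicit false

noncomputable section

namespace Fermat.Agent.Lib.Unif

open Filter Topology

variable (L : PeriodPair)

theorem sub_mem_lattice_of_eq {z w : ℂ} (hz : z ∉ L.lattice) (hw : w ∉ L.lattice)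
    (h0 : L.weierstrassP z = L.weierstrassP w)
    (h1 : L.derivWeierstrassP z = L.derivWeierstrassP w) : z - w ∈ L.lattice :=
  sub_mem_lattice_of_eqOn L
    (eqOn_of_eventuallyEq L hz hw (eventuallyEq_of_cauchy L hz hw h0 h1))

/-- `℘ z = ℘ w ↔ z ≡ ± w` (`PeriodPair.derivWeierstrassP_sq` gives `℘' z = ± ℘' w`). -/
theorem wp_eq_iff {z w : ℂ} (hz : z ∉ L.lattice) (hw : w ∉ L.lattice) :
    L.weierstrassP z = L.weierstrassP w ↔ z - w ∈ L.lattice ∨ z + w ∈ L.lattice := by
  constructor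
  · intro h
    have h1 : L.derivWeierstrassP z ^ 2 = L.derivWeierstrassP w ^ 2 := by
      rw [L.derivWeierstrassP_sq z hz, L.derivWeierstrassP_sq w hw, h]
    rcases sq_eq_sq_iff_eq_or_eq_neg.mp h1 with h2 | h2
    · exact Or.inl (sub_mem_lattice_of_eq L hz hw h h2)
    · right
      have hw' : -w ∉ L.lattice := fun hm => hw ((neg_mem_lattice_iff L).mp hm)
      have h3 := sub_mem_lattice_of_eq L hz hw' (by rw [L.weierstrassP_neg, h])
        (by rw [L.derivWeierstrassP_neg, h2])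
      rwa [sub_neg_eq_add] at h3
  · rintro (h | h)
    · exact wp_congr L h
    · rw [← L.weierstrassP_neg w]
      apply wp_congr L
      rwa [sub_neg_eq_add]

/-- `℘' z = 0 ↔ 2 z ∈ Λ`. -/
theorem wp'_eq_zero_iff {z : ℂ} (hz : z ∉ L.lattice) :
    L.derivWeierstrassP z = 0 ↔ 2 * z ∈ L.lattice := by
  constructor
  · intro h
    have hz' : -z ∉ L.lattice := fun hm => hz ((neg_mem_lattice_iff L).mp hm)
    have h3 := sub_mem_lattice_of_eq L hz hz' (by rw [L.weierstrassP_neg])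
      (by rw [L.derivWeierstrassP_neg, h, neg_zero])
    have h4 : z - -z = 2 * z := by ring
    rwa [h4] at h3
  · intro h
    have h1 : L.derivWeierstrassP z = L.derivWeierstrassP (-z) := by
      apply wp'_congr L
      have h4 : z - -z = 2 * z := by ring
      rwa [h4]
    rw [L.derivWeierstrassP_neg] at h1
    have h2 : 2 * L.derivWeierstrassP z = 0 := by linear_combination h1
    exact (mul_eq_zero.mp h2).resolve_left two_ne_zero

/-- a cubic `4 x ^ 3 - g₂ x - g₃` with three distinct roots has nonzero discriminant. -/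
theorem inj_disc_aux {g2 g3 a b c : ℂ} (ha : 4 * a ^ 3 - g2 * a - g3 = 0)
    (hb : 4 * b ^ 3 - g2 * b - g3 = 0) (hc : 4 * c ^ 3 - g2 * c - g3 = 0) (hab : a ≠ b)
    (hac : a ≠ c) (hbc : b ≠ c) : g2 ^ 3 - 27 * g3 ^ 2 ≠ 0 := by
  have h1 : g2 = 4 * (a ^ 2 + a * b + b ^ 2) := by
    have h : (a - b) * (4 * (a ^ 2 + a * b + b ^ 2) - g2) = 0 := by linear_combination ha - hb
    rcases mul_eq_zero.mp h with h | h
    · exact absurd (sub_eq_zero.mp h) hab
    · linear_combination -h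
  have h2 : g2 = 4 * (a ^ 2 + a * c + c ^ 2) := by
    have h : (a - c) * (4 * (a ^ 2 + a * c + c ^ 2) - g2) = 0 := by linear_combination ha - hc
    rcases mul_eq_zero.mp h with h | h
    · exact absurd (sub_eq_zero.mp h) hac
    · linear_combination -h
  have h3 : a + b + c = 0 := by
    have h : (b - c) * (a + b + c) = 0 := by linear_combination (h2 - h1) / 4
    rcases mul_eq_zero.mp h with h | h
    · exact absurd (sub_eq_zero.mp h) hbc
    · exact h
  have hc' : c = -a - b := by linear_combination h3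
  have h4 : g3 = 4 * a ^ 3 - g2 * a := by linear_combination -ha
  have key : g2 ^ 3 - 27 * g3 ^ 2 = 16 * ((a - b) * (a - c) * (b - c)) ^ 2 := by
    rw [h4, h1, hc']
    ring
  rw [key]
  exact mul_ne_zero (by norm_num) (pow_ne_zero _ (mul_ne_zero (mul_ne_zero (sub_ne_zero.mpr hab)
    (sub_ne_zero.mpr hac)) (sub_ne_zero.mpr hbc)))

theorem inj_notMem {x : ℂ} (α β : ℚ) (h : ¬ (α.den = 1 ∧ β.den = 1))
    (hx : x = α * L.ω₁ + β * L.ω₂) : x ∉ L.lattice := by
  rw [hx]
  exact (PeriodPair.mul_ω₁_add_mul_ω₂_mem_lattice (L := L) (α := α) (β := β)).not.mpr h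

theorem inj_root {z : ℂ} (hz : z ∉ L.lattice) (h2 : 2 * z ∈ L.lattice) :
    4 * L.weierstrassP z ^ 3 - L.g₂ * L.weierstrassP z - L.g₃ = 0 := by
  rw [← L.derivWeierstrassP_sq z hz, (wp'_eq_zero_iff L hz).mpr h2]
  ring

/-- the discriminant of a lattice does not vanish (the three values `℘ (ω / 2)`,
`ω = ω₁, ω₂, ω₁ + ω₂`, are distinct roots of `4 x ^ 3 - g₂ x - g₃`). -/
theorem disc_ne_zero : L.g₂ ^ 3 - 27 * L.g₃ ^ 2 ≠ 0 := by
  have hd : ((1 : ℚ) / 2).den ≠ 1 := by norm_num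
  have hd' : ((-1 : ℚ) / 2).den ≠ 1 := by norm_num
  have h1 : L.ω₁ / 2 ∉ L.lattice := L.ω₁_div_two_notMem_lattice
  have h2 : L.ω₂ / 2 ∉ L.lattice := L.ω₂_div_two_notMem_lattice
  have h3 : (L.ω₁ + L.ω₂) / 2 ∉ L.lattice :=
    inj_notMem L (1 / 2) (1 / 2) (fun h => hd h.1) (by push_cast; ring)
  have m1 : 2 * (L.ω₁ / 2) ∈ L.lattice := by
    rw [mul_div_cancel₀ _ (two_ne_zero' ℂ)]
    exact L.ω₁_mem_lattice
  have m2 : 2 * (L.ω₂ / 2) ∈ L.lattice := by
    rw [mul_div_cancel₀ _ (two_ne_zero' ℂ)]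
    exact L.ω₂_mem_lattice
  have m3 : 2 * ((L.ω₁ + L.ω₂) / 2) ∈ L.lattice := by
    rw [mul_div_cancel₀ _ (two_ne_zero' ℂ)]
    exact add_mem L.ω₁_mem_lattice L.ω₂_mem_lattice
  refine inj_disc_aux (inj_root L h1 m1) (inj_root L h2 m2) (inj_root L h3 m3) ?_ ?_ ?_
  · intro h
    rcases (wp_eq_iff L h1 h2).mp h with h | h
    · exact inj_notMem L (1 / 2) (-1 / 2) (fun h => hd h.1) (by push_cast; ring) h
    · exact inj_notMem L (1 / 2) (1 / 2) (fun h => hd h.1) (by push_cast; ring) h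
  · intro h
    rcases (wp_eq_iff L h1 h3).mp h with h | h
    · exact inj_notMem L 0 (-1 / 2) (fun h => hd' h.2) (by push_cast; ring) h
    · exact inj_notMem L 1 (1 / 2) (fun h => hd h.2) (by push_cast; ring) h
  · intro h
    rcases (wp_eq_iff L h2 h3).mp h with h | h
    · exact inj_notMem L (-1 / 2) 0 (fun h => hd' h.1) (by push_cast; ring) h
    · exact inj_notMem L (1 / 2) 1 (fun h => hd h.1) (by push_cast; ring) h

end Fermat.Agent.Lib.Unif

end
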