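/-
Lib/Unif (architect helper33): complex uniformisation of elliptic curves and analytic Velu.
File `AddX`: the addition theorem for `℘`.
-/
import Fermat.Agent.Lib.Unif.AddX.Deriv
import Fermat.Agent.Lib.Unif.AddX.Limit

set_option autoImplicit false

noncomputable section

namespace Fermat.Agent.Lib.Unif

open Filter Topology

variable (L : PeriodPair)

/-- `h` is constant on `goodSet` (`IsOpen.is_const_of_deriv_eq_zero`) and the constant is the limit
at `0` (`goodSet_mem_nhdsNE`, `tendsto_hfun`, uniqueness of limits; `𝓝[≠] 0` is `NeBot`). -/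
theorem hfun_eq {w z : ℂ} (hw : w ∉ L.lattice) (hz : z ∈ goodSet L w) :
    hfun L w z = L.weierstrassP w := by
  have hconst : ∀ y ∈ goodSet L w, hfun L w y = hfun L w z := fun y hy =>
    (isOpen_goodSet L w).is_const_of_deriv_eq_zero (isPreconnected_goodSet L w)
      (fun t ht => (hasDerivAt_hfun L hw ht).differentiableAt.differentiableWithinAt)
      (fun t ht => (hasDerivAt_hfun L hw ht).deriv) hy hz
  have hev : hfun L w =ᶠ[𝓝[≠] (0 : ℂ)] fun _ => hfun L w z :=
    Filter.mem_of_superset (goodSet_mem_nhdsNE L hw) hconst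
  have h1 : Tendsto (hfun L w) (𝓝[≠] (0 : ℂ)) (𝓝 (hfun L w z)) :=
    (tendsto_congr' hev).2 tendsto_const_nhds
  exact tendsto_nhds_unique h1 (tendsto_hfun L hw)

/-- **Addition theorem for `℘`.** (`hfun_eq` with `w := a + b`, `z := -b`.) -/
theorem wp_add {a b : ℂ} (ha : a ∉ L.lattice) (hb : b ∉ L.lattice) (hab : a + b ∉ L.lattice)
    (hab' : a - b ∉ L.lattice) :
    L.weierstrassP (a + b) =
      ((L.derivWeierstrassP a - L.derivWeierstrassP b) /
        (2 * (L.weierstrassP a - L.weierstrassP b))) ^ 2 - L.weierstrassP a - L.weierstrassP b := by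
  have hz : -b ∈ goodSet L (a + b) := by
    refine ⟨fun h => hb ((neg_mem_lattice_iff L).1 h), ?_, ?_⟩
    · rwa [neg_add_cancel_comm_assoc]
    · rwa [show 2 * -b + (a + b) = a - b by ring]
  have h := hfun_eq L hab hz
  rw [← h, hfun, slopeS, neg_add_cancel_comm_assoc, L.weierstrassP_neg, L.derivWeierstrassP_neg,
    ← sub_eq_add_neg]

end Fermat.Agent.Lib.Unif

end
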