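/-
Lib/Unif (architect helper33).  File `AddY`: the addition theorem for `℘'`
(differentiate `wp_add` with respect to `a`).
-/
import Fermat.Agent.Lib.Unif.AddX

set_option autoImplicit false

noncomputable section

namespace Fermat.Agent.Lib.Unif

open Filter Topology

variable (L : PeriodPair)

/-- pure algebra: `∂ₐ s = 2 ℘ a + ℘ b - s²`. -/
theorem chord_deriv_algebra {x y u v g2 g3 : ℂ} (hx : y ^ 2 = 4 * x ^ 3 - g2 * x - g3)
    (hu : v ^ 2 = 4 * u ^ 3 - g2 * u - g3) (h : x ≠ u) :
    ((6 * x ^ 2 - g2 / 2) * (2 * (x - u)) - (y - v) * (2 * y)) / (2 * (x - u)) ^ 2 =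
      2 * x + u - ((y - v) / (2 * (x - u))) ^ 2 := by
  have h' : x - u ≠ 0 := sub_ne_zero.2 h
  field_simp
  linear_combination (-1) * hx + hu

/-- the derivative of the right hand side of `wp_add` with respect to `a`. -/
theorem hasDerivAt_chord {a b : ℂ} (ha : a ∉ L.lattice) (hb : b ∉ L.lattice)
    (hab : a + b ∉ L.lattice) (hab' : a - b ∉ L.lattice) :
    HasDerivAt (fun a => ((L.derivWeierstrassP a - L.derivWeierstrassP b) /
        (2 * (L.weierstrassP a - L.weierstrassP b))) ^ 2 - L.weierstrassP a - L.weierstrassP b)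
      (- L.derivWeierstrassP a - 2 * ((L.derivWeierstrassP a - L.derivWeierstrassP b) /
        (2 * (L.weierstrassP a - L.weierstrassP b))) *
          (L.weierstrassP (a + b) - L.weierstrassP a)) a := by
  have hne : L.weierstrassP a ≠ L.weierstrassP b := fun h =>
    ((wp_eq_iff L ha hb).1 h).elim hab' hab
  have hne' : 2 * (L.weierstrassP a - L.weierstrassP b) ≠ 0 :=
    mul_ne_zero two_ne_zero (sub_ne_zero.2 hne)
  have h1 : HasDerivAt (fun a => L.derivWeierstrassP a - L.derivWeierstrassP b) (wp2 L a) a :=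
    (hasDerivAt_wp' L ha).sub_const _
  have h2 : HasDerivAt (fun a => 2 * (L.weierstrassP a - L.weierstrassP b))
      (2 * L.derivWeierstrassP a) a := ((hasDerivAt_wp L ha).sub_const _).const_mul 2
  have h4 := chord_deriv_algebra (L.derivWeierstrassP_sq a ha) (L.derivWeierstrassP_sq b hb) hne
  have h3 : HasDerivAt (fun a => (L.derivWeierstrassP a - L.derivWeierstrassP b) /
      (2 * (L.weierstrassP a - L.weierstrassP b)))
      (2 * L.weierstrassP a + L.weierstrassP b -
        ((L.derivWeierstrassP a - L.derivWeierstrassP b) /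
          (2 * (L.weierstrassP a - L.weierstrassP b))) ^ 2) a := by
    have h := h1.div h2 hne'
    rw [wp2, h4] at h
    exact h
  have h5 : HasDerivAt (fun a => ((L.derivWeierstrassP a - L.derivWeierstrassP b) /
        (2 * (L.weierstrassP a - L.weierstrassP b))) ^ 2 - L.weierstrassP a - L.weierstrassP b) _ a :=
    ((h3.pow 2).sub (hasDerivAt_wp L ha)).sub_const (L.weierstrassP b)
  refine h5.congr_deriv ?_
  rw [wp_add L ha hb hab hab']
  push_cast
  ring

/-- **Addition theorem for `℘'`.** -/
theorem wp'_add {a b : ℂ} (ha : a ∉ L.lattice) (hb : b ∉ L.lattice) (hab : a + b ∉ L.lattice)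
    (hab' : a - b ∉ L.lattice) :
    L.derivWeierstrassP (a + b) =
      - L.derivWeierstrassP a - 2 * ((L.derivWeierstrassP a - L.derivWeierstrassP b) /
        (2 * (L.weierstrassP a - L.weierstrassP b))) *
          (L.weierstrassP (a + b) - L.weierstrassP a) := by
  have h1 : HasDerivAt (fun a => L.weierstrassP (a + b)) (L.derivWeierstrassP (a + b)) a :=
    (hasDerivAt_wp L hab).comp_add_const a b
  have hopen : IsOpen (L.lattice : Set ℂ)ᶜ := L.isClosed_lattice.isOpen_compl
  have e1 : ∀ᶠ t in 𝓝 a, t ∉ L.lattice := hopen.mem_nhds ha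
  have e2 : ∀ᶠ t in 𝓝 a, t + b ∉ L.lattice :=
    (continuous_id.add continuous_const).continuousAt.eventually (hopen.mem_nhds hab)
  have e3 : ∀ᶠ t in 𝓝 a, t - b ∉ L.lattice :=
    (continuous_id.sub continuous_const).continuousAt.eventually (hopen.mem_nhds hab')
  have h2 : (fun a => L.weierstrassP (a + b)) =ᶠ[𝓝 a]
      (fun a => ((L.derivWeierstrassP a - L.derivWeierstrassP b) /
        (2 * (L.weierstrassP a - L.weierstrassP b))) ^ 2 - L.weierstrassP a -
          L.weierstrassP b) := by
    filter_upwards [e1, e2, e3] with t h1 h2 h3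
    exact wp_add L h1 hb h2 h3
  exact h1.unique ((hasDerivAt_chord L ha hb hab hab').congr_of_eventuallyEq h2)

end Fermat.Agent.Lib.Unif

end
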