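/-
Lib/Unif (architect helper33): complex uniformisation of elliptic curves and analytic Velu.
File `Basis`: a point of prime order `N` of `ℂ / Λ` is `ω₁ / N` for a suitable oriented basis.  Mathlib only.
-/
import Mathlib

set_option autoImplicit false

noncomputable section

namespace Fermat.Agent.Lib.Unif

open Filter Topology

/-- one half of `exists_coprime_congr` -/
private theorem basis_coprime_congr_aux {N : ℕ} (hN : N.Prime) (a : ℤ) {b : ℤ}
    (h : ¬ (N : ℤ) ∣ b) : ∃ a' : ℤ, IsCoprime a' b ∧ (N : ℤ) ∣ a' - a := by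
  obtain ⟨u, v, huv⟩ : IsCoprime (N : ℤ) b :=
    (Nat.prime_iff_prime_int.1 hN).coprime_iff_not_dvd.2 h
  refine ⟨a * (v * b) + u * N, ⟨1, -(v * (a - 1)), ?_⟩, ⟨u * (1 - a), ?_⟩⟩
  · linear_combination huv
  · linear_combination a * huv

/-- arithmetic: a vector which is nonzero mod the prime `N` is congruent to a primitive vector
(if `N ∤ b`: `b' = b`, `a' ≡ a mod N`, `a' ≡ 1 mod b` by the Chinese remainder theorem;
otherwise exchange the roles). -/
theorem exists_coprime_congr {N : ℕ} (hN : N.Prime) {a b : ℤ} (h : ¬ ((N : ℤ) ∣ a ∧ (N : ℤ) ∣ b)) :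
    ∃ a' b' : ℤ, IsCoprime a' b' ∧ (N : ℤ) ∣ a' - a ∧ (N : ℤ) ∣ b' - b := by
  by_cases hb : (N : ℤ) ∣ b
  · have ha : ¬ (N : ℤ) ∣ a := fun ha => h ⟨ha, hb⟩
    obtain ⟨b', hc, hd⟩ := basis_coprime_congr_aux hN b ha
    exact ⟨a, b', hc.symm, by simp, hd⟩
  · obtain ⟨a', hc, hd⟩ := basis_coprime_congr_aux hN a hb
    exact ⟨a', b, hc, hd, by simp⟩

/-- a unimodular change of basis, with a sign -/
private theorem basis_change_aux (L : PeriodPair) {a b u v : ℤ} (h : u * a + v * b = 1) (ε : ℤ)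
    (hε : ε * ε = 1) :
    ∃ L' : PeriodPair, L'.lattice = L.lattice ∧ L'.ω₁ = a * L.ω₁ + b * L.ω₂ ∧
      L'.ω₂ = ε * (-v * L.ω₁ + u * L.ω₂) := by
  have hC : (u : ℂ) * a + v * b = 1 := by exact_mod_cast h
  have hR : (u : ℝ) * a + v * b = 1 := by exact_mod_cast h
  have hεC : (ε : ℂ) * ε = 1 := by exact_mod_cast hε
  have hεR : (ε : ℝ) * ε = 1 := by exact_mod_cast hε
  have hind : LinearIndependent ℝ ![(a : ℂ) * L.ω₁ + b * L.ω₂, ε * (-v * L.ω₁ + u * L.ω₂)] := by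
    rw [LinearIndependent.pair_iff]
    intro s t hst
    have h0 := LinearIndependent.pair_iff.mp L.indep (s * a - t * ε * v) (s * b + t * ε * u) (by
      simp only [Complex.real_smul] at hst ⊢
      push_cast
      linear_combination hst)
    obtain ⟨h1, h2⟩ := h0
    have hs : s = 0 := by linear_combination (u : ℝ) * h1 + (v : ℝ) * h2 - s * hR
    have ht : t = 0 := by
      have : t * ε = 0 := by linear_combination (a : ℝ) * h2 - (b : ℝ) * h1 - t * ε * hR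
      linear_combination (ε : ℝ) * this - t * hεR
    exact ⟨hs, ht⟩
  refine ⟨⟨_, _, hind⟩, ?_, rfl, rfl⟩
  ext x
  rw [PeriodPair.mem_lattice, PeriodPair.mem_lattice]
  constructor
  · rintro ⟨m, n, rfl⟩
    refine ⟨m * a - n * ε * v, m * b + n * ε * u, ?_⟩
    push_cast
    ring
  · rintro ⟨m, n, rfl⟩
    refine ⟨m * u + n * v, ε * (n * a - m * b), ?_⟩
    show ((m * u + n * v : ℤ) : ℂ) * ((a : ℂ) * L.ω₁ + b * L.ω₂) +
      ((ε * (n * a - m * b) : ℤ) : ℂ) * (ε * (-v * L.ω₁ + u * L.ω₂)) = _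
    push_cast
    linear_combination ((m : ℂ) * L.ω₁ + n * L.ω₂) * hC +
      (n * a - m * b) * (-v * L.ω₁ + u * L.ω₂) * hεC

/-- the ratio of the periods is not real -/
private theorem basis_im_ne_zero (L : PeriodPair) : (L.ω₂ / L.ω₁).im ≠ 0 := by
  intro h0
  have h1 : L.ω₁ ≠ 0 := by
    have := L.indep.ne_zero 0
    simpa using this
  have h2 : L.ω₂ = ((L.ω₂ / L.ω₁).re : ℂ) * L.ω₁ := by
    have : ((L.ω₂ / L.ω₁).re : ℂ) = L.ω₂ / L.ω₁ := by
      apply Complex.ext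
      · simp
      · simp [h0]
    rw [this, div_mul_cancel₀ _ h1]
  have h3 := LinearIndependent.pair_iff.mp L.indep (L.ω₂ / L.ω₁).re (-1) (by
    simp only [Complex.real_smul]
    push_cast
    linear_combination -h2)
  have := h3.2
  norm_num at this

/-- a unimodular change of basis. -/
theorem exists_periodPair_of_coprime (L : PeriodPair) {a b : ℤ} (h : IsCoprime a b) :
    ∃ L' : PeriodPair, L'.lattice = L.lattice ∧ L'.ω₁ = a * L.ω₁ + b * L.ω₂ ∧
      0 < (L'.ω₂ / L'.ω₁).im := by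
  obtain ⟨u, v, huv⟩ := h
  obtain ⟨L₁, hl₁, ha₁, hb₁⟩ := basis_change_aux L huv 1 (by norm_num)
  rcases lt_or_gt_of_ne (basis_im_ne_zero L₁) with hneg | hpos
  · obtain ⟨L₂, hl₂, ha₂, hb₂⟩ := basis_change_aux L huv (-1) (by norm_num)
    refine ⟨L₂, hl₂, ha₂, ?_⟩
    have e : L₂.ω₂ / L₂.ω₁ = -(L₁.ω₂ / L₁.ω₁) := by
      rw [ha₂, hb₂, ha₁, hb₁]
      push_cast
      ring
    rw [e, Complex.neg_im]
    linarith
  · exact ⟨L₁, hl₁, ha₁, hpos⟩

theorem exists_basis (L : PeriodPair) {N : ℕ} (hN : N.Prime) {z : ℂ} (hz : z ∉ L.lattice)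
    (hNz : (N : ℂ) * z ∈ L.lattice) :
    ∃ L' : PeriodPair, L'.lattice = L.lattice ∧ z - L'.ω₁ / N ∈ L.lattice ∧
      0 < (L'.ω₂ / L'.ω₁).im := by
  have hN0 : (N : ℂ) ≠ 0 := Nat.cast_ne_zero.2 hN.ne_zero
  obtain ⟨m, n, hmn⟩ := PeriodPair.mem_lattice.mp hNz
  have hnot : ¬ ((N : ℤ) ∣ m ∧ (N : ℤ) ∣ n) := by
    rintro ⟨⟨m', rfl⟩, ⟨n', rfl⟩⟩
    apply hz
    refine PeriodPair.mem_lattice.mpr ⟨m', n', ?_⟩
    apply mul_left_cancel₀ hN0
    rw [← hmn]
    push_cast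
    ring
  obtain ⟨a', b', hc, ⟨s, hs⟩, ⟨t, ht⟩⟩ := exists_coprime_congr hN hnot
  obtain ⟨L', hl, hω, him⟩ := exists_periodPair_of_coprime L hc
  refine ⟨L', hl, PeriodPair.mem_lattice.mpr ⟨-s, -t, ?_⟩, him⟩
  have hsC : (a' : ℂ) - m = N * s := by exact_mod_cast hs
  have htC : (b' : ℂ) - n = N * t := by exact_mod_cast ht
  rw [hω]
  apply mul_left_cancel₀ hN0
  rw [mul_sub, mul_div_cancel₀ _ hN0]
  push_cast
  linear_combination hmn + L.ω₁ * hsC + L.ω₂ * htC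

end Fermat.Agent.Lib.Unif

end
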