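/-
Lib/Unif (architect helper33): complex uniformisation of elliptic curves and analytic Velu.
File `Surj`: `℘` takes every value.
-/
import Fermat.Agent.Lib.Unif.Surj.Inv

set_option autoImplicit false

noncomputable section

namespace Fermat.Agent.Lib.Unif

open Filter Topology

variable (L : PeriodPair)

/-- Liouville (`Differentiable.apply_eq_apply_of_bounded`,
`IsZLattice.isCompact_range_of_periodic`; compare `relation_eq_zero` in Mathlib's file). -/
theorem exists_wp_eq (x : ℂ) : ∃ z, z ∉ L.lattice ∧ L.weierstrassP z = x := by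
  by_contra hcon
  have hx : ∀ z, z ∉ L.lattice → L.weierstrassP z ≠ x := fun z hz h => hcon ⟨z, hz, h⟩
  have hdiff : Differentiable ℂ (invSub L x) := by
    intro z
    by_cases hz : z ∈ L.lattice
    · exact (analyticAt_invSub_of_mem L x hz).differentiableAt
    · exact (analyticAt_invSub_of_notMem L hx hz).differentiableAt
  have hbdd : Bornology.IsBounded (Set.range (invSub L x)) :=
    (IsZLattice.isCompact_range_of_periodic L.lattice _ hdiff.continuous
      fun z w hw => invSub_add_coe L x z ⟨w, hw⟩).isBounded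
  have h1 : invSub L x (L.ω₁ / 2) = invSub L x 0 :=
    hdiff.apply_eq_apply_of_bounded hbdd _ _
  have h2 : invSub L x 0 = 0 := if_pos (zero_mem _)
  have h3 : invSub L x (L.ω₁ / 2) = (L.weierstrassP (L.ω₁ / 2) - x)⁻¹ :=
    if_neg L.ω₁_div_two_notMem_lattice
  rw [h2, h3, inv_eq_zero, sub_eq_zero] at h1
  exact hx _ L.ω₁_div_two_notMem_lattice h1

/-- every point of the curve `y² = 4 x³ - g₂ x - g₃` is `(℘ z, ℘' z)`. -/
theorem exists_wp_wp'_eq {x y : ℂ} (h : y ^ 2 = 4 * x ^ 3 - L.g₂ * x - L.g₃) :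
    ∃ z, z ∉ L.lattice ∧ L.weierstrassP z = x ∧ L.derivWeierstrassP z = y := by
  obtain ⟨z, hz, hzx⟩ := exists_wp_eq L x
  have h1 := L.derivWeierstrassP_sq z hz
  rw [hzx, ← h] at h1
  rcases sq_eq_sq_iff_eq_or_eq_neg.1 h1 with h2 | h2
  · exact ⟨z, hz, hzx, h2⟩
  · refine ⟨-z, fun hm => hz ((neg_mem_lattice_iff L).1 hm), ?_, ?_⟩
    · rw [L.weierstrassP_neg, hzx]
    · rw [L.derivWeierstrassP_neg, h2, neg_neg]

end Fermat.Agent.Lib.Unif

end
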