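/-
Lib/Unif (architect helper33).  File `Curve`: the parametrisation `π : ℂ → W(ℂ)`,
`x = ℘ - b₂ / 12`, `2 y + a₁ x + a₃ = ℘'`, for a Weierstrass curve `W` over `ℂ` with
`c₄ = 12 g₂`, `c₆ = 216 g₃`.
-/
import Fermat.Agent.Lib.Unif.AddY
import Fermat.Agent.Lib.Unif.Surj

set_option autoImplicit false

noncomputable section

namespace Fermat.Agent.Lib.Unif

open Filter Topology WeierstrassCurve

/-- `W` is uniformised by the lattice of `L`. -/
structure IsUnif (W : WeierstrassCurve ℂ) (L : PeriodPair) : Prop where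
  c₄ : W.c₄ = 12 * L.g₂
  c₆ : W.c₆ = 216 * L.g₃

variable {W : WeierstrassCurve ℂ} {L : PeriodPair}

variable (W L) in
def xc (z : ℂ) : ℂ := L.weierstrassP z - W.b₂ / 12

variable (W L) in
def yc (z : ℂ) : ℂ := (L.derivWeierstrassP z - W.a₁ * xc W L z - W.a₃) / 2

/-- (`WeierstrassCurve.c_relation`, `disc_ne_zero`.) -/
theorem IsUnif.Δ_ne_zero (h : IsUnif W L) : W.Δ ≠ 0 := by
  intro h0
  have h1 := W.c_relation
  rw [h0, h.c₄, h.c₆] at h1
  apply disc_ne_zero L
  linear_combination (-1 / 1728 : ℂ) * h1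

/-- pure algebra: completing the square and the cube. -/
theorem equation_iff_short (W : WeierstrassCurve ℂ) (x y : ℂ) :
    W.toAffine.Equation x y ↔
      (2 * y + W.a₁ * x + W.a₃) ^ 2 =
        4 * (x + W.b₂ / 12) ^ 3 - W.c₄ / 12 * (x + W.b₂ / 12) - W.c₆ / 216 := by
  rw [WeierstrassCurve.Affine.equation_iff]
  simp only [WeierstrassCurve.c₄, WeierstrassCurve.c₆, WeierstrassCurve.b₂, WeierstrassCurve.b₄,
    WeierstrassCurve.b₆]
  constructor
  · intro h
    linear_combination 4 * h
  · intro h
    linear_combination (1/4) * h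

theorem IsUnif.equation (h : IsUnif W L) {z : ℂ} (hz : z ∉ L.lattice) :
    W.toAffine.Equation (xc W L z) (yc W L z) := by
  rw [equation_iff_short, h.c₄, h.c₆]
  have h1 := L.derivWeierstrassP_sq z hz
  simp only [xc, yc]
  linear_combination h1

/-- (`WeierstrassCurve.Affine.equation_iff_nonsingular_of_Δ_ne_zero` or similar.) -/
theorem IsUnif.nonsingular (h : IsUnif W L) {z : ℂ} (hz : z ∉ L.lattice) :
    W.toAffine.Nonsingular (xc W L z) (yc W L z) :=
  (WeierstrassCurve.Affine.equation_iff_nonsingular_of_Δ_ne_zero h.Δ_ne_zero).mp (h.equation hz)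

open Classical in
/-- the parametrisation. -/
def piW (h : IsUnif W L) (z : ℂ) : W.toAffine.Point :=
  if hz : z ∈ L.lattice then 0 else .some _ _ (h.nonsingular hz)

theorem piW_of_mem (h : IsUnif W L) {z : ℂ} (hz : z ∈ L.lattice) : piW h z = 0 := by
  simp [piW, hz]

theorem piW_of_notMem (h : IsUnif W L) {z : ℂ} (hz : z ∉ L.lattice) :
    piW h z = .some _ _ (h.nonsingular hz) := by
  simp [piW, hz]

theorem piW_eq_zero_iff (h : IsUnif W L) {z : ℂ} : piW h z = 0 ↔ z ∈ L.lattice := by
  constructor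
  · intro h0
    by_contra hz
    rw [piW_of_notMem h hz] at h0
    exact WeierstrassCurve.Affine.Point.some_ne_zero _ h0
  · exact piW_of_mem h

theorem piW_congr (h : IsUnif W L) {z w : ℂ} (hzw : z - w ∈ L.lattice) : piW h z = piW h w := by
  by_cases hz : z ∈ L.lattice
  · have hw : w ∈ L.lattice := by
      have := L.lattice.sub_mem hz hzw
      simpa using this
    rw [piW_of_mem h hz, piW_of_mem h hw]
  · have hw : w ∉ L.lattice := by
      intro hw
      apply hz
      have := L.lattice.add_mem hzw hw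
      simpa using this
    rw [piW_of_notMem h hz, piW_of_notMem h hw]
    have h1 : xc W L z = xc W L w := by
      simp only [xc, wp_congr L hzw]
    have h2 : yc W L z = yc W L w := by
      simp only [yc, h1, wp'_congr L hzw]
    simp only [h1, h2]

theorem piW_neg (h : IsUnif W L) (z : ℂ) : piW h (-z) = - piW h z := by
  by_cases hz : z ∈ L.lattice
  · rw [piW_of_mem h hz, piW_of_mem h ((neg_mem_lattice_iff L).mpr hz), neg_zero]
  · have hz' : -z ∉ L.lattice := fun h' => hz ((neg_mem_lattice_iff L).mp h')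
    rw [piW_of_notMem h hz, piW_of_notMem h hz', WeierstrassCurve.Affine.Point.neg_some]
    have h1 : xc W L (-z) = xc W L z := by
      simp only [xc, L.weierstrassP_neg]
    have h2 : yc W L (-z) = W.toAffine.negY (xc W L z) (yc W L z) := by
      simp only [yc, h1, L.derivWeierstrassP_neg, WeierstrassCurve.Affine.negY]
      ring
    simp only [h1, h2]

end Fermat.Agent.Lib.Unif

end
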