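/-
Lib/Unif (architect helper33).  File `CurveAdd`: additivity of `π` in the generic case.
-/
import Fermat.Agent.Lib.Unif.Curve

set_option autoImplicit false

noncomputable section

namespace Fermat.Agent.Lib.Unif

open Filter Topology WeierstrassCurve

variable {W : WeierstrassCurve ℂ} {L : PeriodPair}

/-- pure algebra: Mathlib's chord formulas in the coordinates `(p, q) = (x + b₂/12, 2y + a₁x + a₃)`.
(`WeierstrassCurve.Affine.slope_of_X_ne`, `addX`, `addY`, `negAddY`, `negY`.) -/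
theorem chord_glue (W : WeierstrassCurve ℂ) {p₁ q₁ p₂ q₂ : ℂ} (hne : p₁ ≠ p₂) :
    let x₁ := p₁ - W.b₂ / 12
    let x₂ := p₂ - W.b₂ / 12
    let y₁ := (q₁ - W.a₁ * x₁ - W.a₃) / 2
    let y₂ := (q₂ - W.a₁ * x₂ - W.a₃) / 2
    let s := (q₁ - q₂) / (2 * (p₁ - p₂))
    let p₃ := s ^ 2 - p₁ - p₂
    let q₃ := - q₁ - 2 * s * (p₃ - p₁)
    W.toAffine.addX x₁ x₂ (W.toAffine.slope x₁ x₂ y₁ y₂) = p₃ - W.b₂ / 12 ∧
    W.toAffine.addY x₁ x₂ y₁ (W.toAffine.slope x₁ x₂ y₁ y₂) =
      (q₃ - W.a₁ * (p₃ - W.b₂ / 12) - W.a₃) / 2 := by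
  intro x₁ x₂ y₁ y₂ s p₃ q₃
  have hx : x₁ ≠ x₂ := by simpa [x₁, x₂] using hne
  have hs : W.toAffine.slope x₁ x₂ y₁ y₂ = s - W.a₁ / 2 := by
    rw [WeierstrassCurve.Affine.slope_of_X_ne hx]
    have h1 : p₁ - p₂ ≠ 0 := sub_ne_zero.2 hne
    have h2 : x₁ - x₂ = p₁ - p₂ := by simp [x₁, x₂]
    rw [h2]
    simp only [y₁, y₂, s, x₁, x₂]
    field_simp
    ring
  rw [hs]
  constructor
  · simp only [WeierstrassCurve.Affine.addX, x₁, x₂, p₃, WeierstrassCurve.b₂]
    ring
  · simp only [WeierstrassCurve.Affine.addY, WeierstrassCurve.Affine.negAddY,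
      WeierstrassCurve.Affine.negY, WeierstrassCurve.Affine.addX, x₁, x₂, y₁, p₃, q₃,
      WeierstrassCurve.b₂]
    ring

theorem curveAdd_some_congr (W : WeierstrassCurve ℂ) {x x' y y' : ℂ} (hx : x = x') (hy : y = y')
    (h : W.toAffine.Nonsingular x y) (h' : W.toAffine.Nonsingular x' y') :
    (WeierstrassCurve.Affine.Point.some x y h : W.toAffine.Point) =
      WeierstrassCurve.Affine.Point.some x' y' h' := by
  subst hx hy
  rfl

/-- additivity in the generic case (`wp_add`, `wp'_add`, `chord_glue`,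
`WeierstrassCurve.Affine.Point.add_of_X_ne`, `wp_eq_iff`). -/
theorem piW_add_generic (h : IsUnif W L) {a b : ℂ} (ha : a ∉ L.lattice) (hb : b ∉ L.lattice)
    (hab : a + b ∉ L.lattice) (hab' : a - b ∉ L.lattice) :
    piW h (a + b) = piW h a + piW h b := by
  have hne : L.weierstrassP a ≠ L.weierstrassP b := by
    intro he
    rcases (wp_eq_iff L ha hb).1 he with h1 | h1
    · exact hab' h1
    · exact hab h1
  have hx : xc W L a ≠ xc W L b := by
    intro he
    exact hne (sub_left_injective he)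
  rw [piW_of_notMem h ha, piW_of_notMem h hb, piW_of_notMem h hab,
    WeierstrassCurve.Affine.Point.add_of_X_ne hx]
  have hg := chord_glue W (q₁ := L.derivWeierstrassP a) (q₂ := L.derivWeierstrassP b) hne
  simp only at hg
  have hX := wp_add L ha hb hab hab'
  have hY := wp'_add L ha hb hab hab'
  refine curveAdd_some_congr W ?_ ?_ _ _
  · refine Eq.trans ?_ hg.1.symm
    rw [xc, hX]
  · refine Eq.trans ?_ hg.2.symm
    rw [yc, xc, hY, hX]

end Fermat.Agent.Lib.Unif

end
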