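/-
Lib/Unif (architect helper33).  File `Generic`: generic additivity implies additivity.
-/
import Fermat.Agent.Lib.Unif.Basic

set_option autoImplicit false

noncomputable section

namespace Fermat.Agent.Lib.Unif

open Filter Topology

/-- an auxiliary generic point (the four conditions exclude a countable set). -/
theorem exists_generic (L : PeriodPair) (a : ℂ) :
    ∃ t : ℂ, t ∉ L.lattice ∧ 2 * t ∉ L.lattice ∧ a + t ∉ L.lattice ∧ a - t ∉ L.lattice := by
  have hΛ := countable_lattice L
  have h2 : ((fun t : ℂ => 2 * t) ⁻¹' (L.lattice : Set ℂ)).Countable :=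
    hΛ.preimage_of_injOn (fun x _ y _ h => mul_left_cancel₀ (two_ne_zero) h)
  have h3 : ((fun t : ℂ => a + t) ⁻¹' (L.lattice : Set ℂ)).Countable :=
    hΛ.preimage_of_injOn (fun x _ y _ h => add_left_cancel h)
  have h4 : ((fun t : ℂ => a - t) ⁻¹' (L.lattice : Set ℂ)).Countable :=
    hΛ.preimage_of_injOn (fun x _ y _ h => sub_right_injective h)
  have hB := ((hΛ.union h2).union h3).union h4
  obtain ⟨t, ht⟩ := (hB.dense_compl ℝ).nonempty
  simp only [Set.mem_compl_iff, Set.mem_union, Set.mem_preimage, SetLike.mem_coe, not_or] at ht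
  exact ⟨t, ht.1.1.1, ht.1.1.2, ht.1.2, ht.2⟩

/-- abstract: an odd, `Λ`-periodic map, zero on `Λ`, additive on generic pairs, is additive.
(`a ∈ Λ` or `b ∈ Λ`: periodicity; `a + b ∈ Λ`: oddness; `a - b ∈ Λ`:
`f (2a) = f ((a + t) + (a - t)) = f a + f t + f a + f (-t)`.) -/
theorem additive_of_generic {G : Type*} [AddCommGroup G] (L : PeriodPair) (f : ℂ → G)
    (hzero : ∀ z ∈ L.lattice, f z = 0) (hper : ∀ z w : ℂ, z - w ∈ L.lattice → f z = f w)
    (hneg : ∀ z, f (-z) = - f z)
    (hgen : ∀ a b : ℂ, a ∉ L.lattice → b ∉ L.lattice → a + b ∉ L.lattice → a - b ∉ L.lattice →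
      f (a + b) = f a + f b) (a b : ℂ) : f (a + b) = f a + f b := by
  by_cases ha : a ∈ L.lattice
  · rw [hzero a ha, zero_add]
    exact hper _ _ (by rwa [add_sub_cancel_right])
  by_cases hb : b ∈ L.lattice
  · rw [hzero b hb, add_zero]
    exact hper _ _ (by rwa [add_sub_cancel_left])
  by_cases hab : a + b ∈ L.lattice
  · rw [hzero _ hab, hper a (-b) (by rwa [sub_neg_eq_add]), hneg, neg_add_cancel]
  by_cases hab' : a - b ∈ L.lattice
  · have hba : b - a ∈ L.lattice := by
      have := neg_mem hab'
      rwa [neg_sub] at this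
    have h2a : a + a ∉ L.lattice := by
      intro h
      apply hab
      have := add_mem h hba
      have e : a + a + (b - a) = a + b := by ring
      rwa [e] at this
    obtain ⟨t, ht, h2t, hat, hat'⟩ := exists_generic L a
    have hnt : -t ∉ L.lattice := fun h => ht (neg_mem_iff.mp h)
    have e1 : f (a + b) = f (a + a) := hper _ _ (by
      have e : a + b - (a + a) = b - a := by ring
      rwa [e])
    have e2 : f (a + a) = f (a + t) + f (a - t) := by
      have := hgen (a + t) (a - t) hat hat' (by
        have e : a + t + (a - t) = a + a := by ring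
        rwa [e]) (by
        have e : a + t - (a - t) = 2 * t := by ring
        rwa [e])
      have e : a + t + (a - t) = a + a := by ring
      rwa [e] at this
    have e3 : f (a + t) = f a + f t := hgen a t ha ht hat hat'
    have e4 : f (a - t) = f a - f t := by
      have := hgen a (-t) ha hnt (by rwa [← sub_eq_add_neg]) (by rwa [sub_neg_eq_add])
      rw [← sub_eq_add_neg, hneg, ← sub_eq_add_neg] at this
      exact this
    rw [e1, e2, e3, e4, hper b a hba]
    abel
  · exact hgen a b ha hb hab hab'

end Fermat.Agent.Lib.Unif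

end
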