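/-
Lib/Unif (architect helper33).  File `Hom`: `π : ℂ → W(ℂ)` is a surjective group homomorphism with
kernel the lattice.
-/
import Fermat.Agent.Lib.Unif.CurveAdd
import Fermat.Agent.Lib.Unif.Generic

set_option autoImplicit false

noncomputable section

namespace Fermat.Agent.Lib.Unif

open Filter Topology WeierstrassCurve

variable {W : WeierstrassCurve ℂ} {L : PeriodPair}

theorem piW_add (h : IsUnif W L) (a b : ℂ) : piW h (a + b) = piW h a + piW h b :=
  additive_of_generic L (piW h) (fun _ hz => piW_of_mem h hz) (fun _ _ hzw => piW_congr h hzw)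
    (piW_neg h) (fun _ _ ha hb hab hab' => piW_add_generic h ha hb hab hab') a b

/-- **the uniformisation homomorphism.** -/
def piHom (h : IsUnif W L) : ℂ →+ W.toAffine.Point where
  toFun := piW h
  map_zero' := piW_of_mem h L.lattice.zero_mem
  map_add' := piW_add h

@[simp] theorem piHom_apply (h : IsUnif W L) (z : ℂ) : piHom h z = piW h z := rfl

theorem piHom_eq_zero_iff (h : IsUnif W L) {z : ℂ} : piHom h z = 0 ↔ z ∈ L.lattice :=
  piW_eq_zero_iff h

theorem piHom_eq_iff (h : IsUnif W L) {z w : ℂ} : piHom h z = piHom h w ↔ z - w ∈ L.lattice := by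
  rw [← sub_eq_zero, ← map_sub, piHom_eq_zero_iff]

/-- (`exists_wp_wp'_eq`, `equation_iff_short`.) -/
theorem piHom_surjective (h : IsUnif W L) : Function.Surjective (piHom h) := by
  intro P
  rcases P with _ | ⟨x, y, hxy⟩
  · exact ⟨0, map_zero _⟩
  · have heq : W.toAffine.Equation x y := hxy.1
    rw [equation_iff_short, h.c₄, h.c₆] at heq
    have heq' : (2 * y + W.a₁ * x + W.a₃) ^ 2 =
        4 * (x + W.b₂ / 12) ^ 3 - L.g₂ * (x + W.b₂ / 12) - L.g₃ := by
      rw [heq]; ring
    obtain ⟨z, hz, hzx, hzy⟩ := exists_wp_wp'_eq L heq'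
    refine ⟨z, ?_⟩
    rw [piHom_apply, piW_of_notMem h hz]
    have hx : xc W L z = x := by
      rw [xc, hzx]; ring
    have hy : yc W L z = y := by
      rw [yc, hx, hzy]; ring
    simp only [hx, hy]

end Fermat.Agent.Lib.Unif

end
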