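/-
Lib/Unif (architect helper33): complex uniformisation of elliptic curves and analytic Velu.
File `Eis`: the lattice `ℤ + ℤ τ` and the Eisenstein series of Mathlib.
-/
import Mathlib

set_option autoImplicit false

noncomputable section

namespace Fermat.Agent.Lib.Unif

open Filter Topology UpperHalfPlane ModularForm EisensteinSeries
open scoped Real

theorem ofTau_indep (τ : ℍ) : LinearIndependent ℝ ![(1 : ℂ), (τ : ℂ)] := by
  rw [LinearIndependent.pair_iff]
  intro s t h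
  have him := congrArg Complex.im h
  have hre := congrArg Complex.re h
  simp only [Complex.add_im, Complex.real_smul, Complex.mul_im, Complex.ofReal_re,
    Complex.ofReal_im, zero_mul, add_zero, zero_add,
    UpperHalfPlane.coe_im, Complex.zero_im, mul_one] at him
  have ht : t = 0 := by
    rcases mul_eq_zero.mp him with h | h
    · exact h
    · exact absurd h τ.im_pos.ne'
  subst ht
  simp at hre
  exact ⟨hre, rfl⟩

/-- the lattice `ℤ + ℤ τ`. -/
def ofTau (τ : ℍ) : PeriodPair := ⟨1, τ, ofTau_indep τ⟩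

/-- (`PeriodPair.latticeEquivProd`, `Equiv.tsum_eq`; `eisSummand k v τ = (v 0 * τ + v 1) ^ (-k)`.) -/
theorem G_ofTau (k : ℕ) (τ : ℍ) :
    (ofTau τ).G k = ∑' v : Fin 2 → ℤ, eisSummand (k : ℤ) v τ := by
  let e : (Fin 2 → ℤ) ≃ (ofTau τ).lattice :=
    ((finTwoArrowEquiv ℤ).trans (Equiv.prodComm ℤ ℤ)).trans
      (ofTau τ).latticeEquivProd.symm.toEquiv
  rw [PeriodPair.G, ← e.tsum_eq]
  refine tsum_congr fun v => ?_
  have h1 : ((e v : (ofTau τ).lattice) : ℂ) = (v 1 : ℂ) * 1 + (v 0 : ℂ) * τ :=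
    (ofTau τ).latticeEquiv_symm_apply (v 1, v 0)
  rw [h1, eisSummand, zpow_neg, zpow_natCast, mul_one, add_comm]

theorem Eis_E_apply {k : ℕ} (hk : 3 ≤ k) (τ : ℍ) :
    E hk τ = 1 / 2 * eisensteinSeries (N := 1) 0 k τ := by
  rw [show E hk τ = (1 / 2 : ℂ) • eisensteinSeriesSIF (N := 1) 0 k τ from rfl,
    eisensteinSeriesSIF_apply 0 k τ, smul_eq_mul]

theorem Eis_G_eq {k : ℕ} (hk : 3 ≤ k) (τ : ℍ) :
    (ofTau τ).G k = 2 * riemannZeta k * E hk τ := by
  rw [G_ofTau, tsum_eisSummand_eq_riemannZeta_mul_eisensteinSeries hk, Eis_E_apply]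
  ring

theorem Eis_riemannZeta_six : riemannZeta 6 = (π : ℂ) ^ 6 / 945 := by
  have h := riemannZeta_two_mul_nat (k := 3) (by norm_num)
  have hb : bernoulli 6 = 1 / 42 := by decide +kernel
  norm_num [hb, Nat.factorial] at h
  rw [h]
  ring

/-- (`tsum_eisSummand_eq_riemannZeta_mul_eisensteinSeries`, definition of `E`, `riemannZeta_four`.) -/
theorem g₂_ofTau (τ : ℍ) : (ofTau τ).g₂ = 4 / 3 * (π : ℂ) ^ 4 * E₄ τ := by
  have h := Eis_G_eq (k := 4) (by norm_num) τ
  rw [PeriodPair.g₂, h]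
  push_cast
  rw [riemannZeta_four]
  ring

/-- (`riemannZeta_two_mul_nat` for `ζ 6 = π ^ 6 / 945`.) -/
theorem g₃_ofTau (τ : ℍ) : (ofTau τ).g₃ = 8 / 27 * (π : ℂ) ^ 6 * E₆ τ := by
  have h := Eis_G_eq (k := 6) (by norm_num) τ
  rw [PeriodPair.g₃, h]
  push_cast
  rw [Eis_riemannZeta_six]
  ring

end Fermat.Agent.Lib.Unif

end
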