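/-
Lib/Unif (architect helper33): complex uniformisation of elliptic curves and analytic Velu.
File `Scale`: dependence on the lattice only; homothety.  Mathlib only.
-/
import Mathlib

set_option autoImplicit false

noncomputable section

namespace Fermat.Agent.Lib.Unif

open Filter Topology

/-- a sum over a submodule only depends on the submodule. -/
theorem scale_tsum_congr {S S' : Submodule ℤ ℂ} (h : S = S') (f : ℂ → ℂ) :
    ∑' l : S, f l = ∑' l : S', f l := by
  subst h
  rfl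

/-- `G`, `℘`, `℘'` only depend on the lattice (unfold the definitions and rewrite `L.lattice`). -/
theorem G_congr {L L' : PeriodPair} (h : L.lattice = L'.lattice) (n : ℕ) : L.G n = L'.G n :=
  scale_tsum_congr h fun l => (l ^ n)⁻¹

theorem g₂_congr {L L' : PeriodPair} (h : L.lattice = L'.lattice) : L.g₂ = L'.g₂ := by
  rw [PeriodPair.g₂, PeriodPair.g₂, G_congr h]

theorem g₃_congr {L L' : PeriodPair} (h : L.lattice = L'.lattice) : L.g₃ = L'.g₃ := by
  rw [PeriodPair.g₃, PeriodPair.g₃, G_congr h]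

theorem wp_congr_lattice {L L' : PeriodPair} (h : L.lattice = L'.lattice) :
    L.weierstrassP = L'.weierstrassP := by
  funext z
  exact scale_tsum_congr h fun l => 1 / (z - l) ^ 2 - 1 / l ^ 2

theorem wp'_congr_lattice {L L' : PeriodPair} (h : L.lattice = L'.lattice) :
    L.derivWeierstrassP = L'.derivWeierstrassP := by
  funext z
  exact congrArg Neg.neg (scale_tsum_congr h fun l => 2 / (z - l) ^ 3)

theorem scale_indep (L : PeriodPair) {c : ℂ} (hc : c ≠ 0) :
    LinearIndependent ℝ ![c * L.ω₁, c * L.ω₂] := by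
  have h := L.indep.map' (LinearMap.mulLeft ℝ c) (by
    rw [LinearMap.ker_eq_bot]
    intro a b hab
    exact mul_left_cancel₀ hc hab)
  have e : (⇑(LinearMap.mulLeft ℝ c) ∘ ![L.ω₁, L.ω₂]) = ![c * L.ω₁, c * L.ω₂] := by
    funext i
    fin_cases i <;> rfl
  rwa [e] at h

/-- the homothetic lattice `c Λ`. -/
def scale (L : PeriodPair) (c : ℂ) (hc : c ≠ 0) : PeriodPair := ⟨c * L.ω₁, c * L.ω₂, scale_indep L hc⟩

theorem mem_scale_lattice (L : PeriodPair) {c : ℂ} (hc : c ≠ 0) {z : ℂ} :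
    z ∈ (scale L c hc).lattice ↔ z / c ∈ L.lattice := by
  rw [PeriodPair.mem_lattice, PeriodPair.mem_lattice]
  refine exists_congr fun m => exists_congr fun n => ?_
  rw [eq_div_iff hc]
  show (m : ℂ) * (c * L.ω₁) + (n : ℂ) * (c * L.ω₂) = z ↔ _
  constructor
  · intro h
    rw [← h]
    ring
  · intro h
    rw [← h]
    ring

/-- multiplication by `c`, from `Λ` to `c Λ`. -/
def scaleEquiv (L : PeriodPair) (c : ℂ) (hc : c ≠ 0) : L.lattice ≃ (scale L c hc).lattice where
  toFun l := ⟨c * l, (mem_scale_lattice L hc).2 (by rw [mul_div_cancel_left₀ _ hc]; exact l.2)⟩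
  invFun l := ⟨l / c, (mem_scale_lattice L hc).1 l.2⟩
  left_inv l := Subtype.ext (mul_div_cancel_left₀ _ hc)
  right_inv l := Subtype.ext (mul_div_cancel₀ _ hc)

theorem G_scale (L : PeriodPair) {c : ℂ} (hc : c ≠ 0) (n : ℕ) :
    (scale L c hc).G n = (c ^ n)⁻¹ * L.G n := by
  rw [PeriodPair.G, PeriodPair.G, ← (scaleEquiv L c hc).tsum_eq, ← tsum_mul_left]
  refine tsum_congr fun l => ?_
  show ((c * (l : ℂ)) ^ n)⁻¹ = _
  rw [mul_pow, mul_inv]

theorem g₂_scale (L : PeriodPair) {c : ℂ} (hc : c ≠ 0) :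
    (scale L c hc).g₂ = (c ^ 4)⁻¹ * L.g₂ := by
  rw [PeriodPair.g₂, PeriodPair.g₂, G_scale]
  ring

theorem g₃_scale (L : PeriodPair) {c : ℂ} (hc : c ≠ 0) :
    (scale L c hc).g₃ = (c ^ 6)⁻¹ * L.g₃ := by
  rw [PeriodPair.g₃, PeriodPair.g₃, G_scale]
  ring

end Fermat.Agent.Lib.Unif

end
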