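/-
Lib/Unif (architect helper33): complex uniformisation of elliptic curves and analytic Velu.
File `JInv`: the `j`-invariant of a lattice is `jfun (ω₂ / ω₁)`.
-/
import Fermat.Agent.Lib.Unif.Eis
import Fermat.Agent.Lib.Unif.Scale
import Fermat.Agent.S24.Analytic.JBasic

set_option autoImplicit false

noncomputable section

namespace Fermat.Agent.Lib.Unif

open Filter Topology UpperHalfPlane ModularForm EisensteinSeries Fermat.Agent.S24
open scoped Real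

/-- (`g₂_ofTau`, `g₃_ofTau`, `S24.jfun`, `S24.jfun_eq`, `discriminant` does not vanish.) -/
theorem jfun_ofTau (τ : ℍ) :
    jfun τ * ((ofTau τ).g₂ ^ 3 - 27 * (ofTau τ).g₃ ^ 2) = 1728 * (ofTau τ).g₂ ^ 3 := by
  have hΔ : discriminant τ ≠ 0 := discriminant_ne_zero τ
  have h1 : jfun τ * discriminant τ = E₄ τ ^ 3 := by
    unfold jfun
    exact div_mul_cancel₀ _ hΔ
  have h2 : (jfun τ - 1728) * discriminant τ = E₆ τ ^ 2 := by
    rw [jfun_eq, div_mul_cancel₀ _ hΔ]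
  rw [g₂_ofTau, g₃_ofTau]
  linear_combination (-(64 / 27 * (π : ℂ) ^ 12) * jfun τ + 1728 * (64 / 27 * (π : ℂ) ^ 12)) * h1 +
    64 / 27 * (π : ℂ) ^ 12 * jfun τ * h2

/-- (`L` has the same periods as `scale (ofTau τ) L.ω₁`.) -/
theorem jfun_of_eq (L : PeriodPair) (τ : ℍ) (hτ : (τ : ℂ) = L.ω₂ / L.ω₁) :
    jfun τ * (L.g₂ ^ 3 - 27 * L.g₃ ^ 2) = 1728 * L.g₂ ^ 3 := by
  have hω : L.ω₁ ≠ 0 := by
    intro h
    rw [h, div_zero] at hτ
    have h1 := τ.im_pos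
    have h2 : (τ : ℂ).im = 0 := by rw [hτ]; rfl
    rw [UpperHalfPlane.coe_im] at h2
    exact h1.ne' h2
  have hL : L = scale (ofTau τ) L.ω₁ hω := by
    obtain ⟨w₁, w₂, hi⟩ := L
    have e1 : w₁ * (1 : ℂ) = w₁ := mul_one _
    have e2 : w₁ * (τ : ℂ) = w₂ := by
      rw [hτ]
      exact mul_div_cancel₀ _ hω
    simp only [scale, ofTau, e1, e2]
  have h := jfun_ofTau τ
  have e2 : L.g₂ = (L.ω₁ ^ 4)⁻¹ * (ofTau τ).g₂ := by
    conv_lhs => rw [hL]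
    exact g₂_scale _ hω
  have e3 : L.g₃ = (L.ω₁ ^ 6)⁻¹ * (ofTau τ).g₃ := by
    conv_lhs => rw [hL]
    exact g₃_scale _ hω
  rw [e2, e3]
  linear_combination ((L.ω₁ ^ 4)⁻¹) ^ 3 * h

end Fermat.Agent.Lib.Unif

end
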