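/-
Lib/Unif (architect helper33): complex uniformisation of elliptic curves and analytic Velu.
File `Exists`: every elliptic curve over `ℂ` is uniformised by a lattice.
-/
import Fermat.Agent.Lib.Unif.JInv
import Fermat.Agent.Lib.Unif.Hom
import Fermat.Agent.S24.Analytic.JSurj

set_option autoImplicit false

noncomputable section

namespace Fermat.Agent.Lib.Unif

open Filter Topology UpperHalfPlane Fermat.Agent.S24

/-- pure algebra (cases `G2 = 0`, `G3 = 0`, generic: `c ^ 2 = (g3 / G3) / (g2 / G2)`;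
`IsAlgClosed.exists_pow_nat_eq`). -/
theorem exists_scale_algebra {g2 g3 G2 G3 : ℂ} (hD : g2 ^ 3 - 27 * g3 ^ 2 ≠ 0)
    (hD' : G2 ^ 3 - 27 * G3 ^ 2 ≠ 0)
    (hj : g2 ^ 3 * (G2 ^ 3 - 27 * G3 ^ 2) = G2 ^ 3 * (g2 ^ 3 - 27 * g3 ^ 2)) :
    ∃ c : ℂ, c ≠ 0 ∧ g2 = (c ^ 4)⁻¹ * G2 ∧ g3 = (c ^ 6)⁻¹ * G3 := by
  have hrel : g2 ^ 3 * G3 ^ 2 = G2 ^ 3 * g3 ^ 2 := by linear_combination (-1 / 27 : ℂ) * hj
  by_cases hG2 : G2 = 0
  · -- `G2 = 0`
    subst hG2
    have hG3 : G3 ≠ 0 := by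
      rintro rfl
      exact hD' (by ring)
    have hg2 : g2 = 0 := by
      have h1 : g2 ^ 3 * G3 ^ 2 = 0 := by rw [hrel]; ring
      rcases mul_eq_zero.mp h1 with h | h
      · exact pow_eq_zero_iff (by norm_num) |>.mp h
      · exact absurd (pow_eq_zero_iff (by norm_num) |>.mp h) hG3
    subst hg2
    have hg3 : g3 ≠ 0 := by
      rintro rfl
      exact hD (by ring)
    obtain ⟨c, hc⟩ := IsAlgClosed.exists_pow_nat_eq (G3 / g3) (n := 6) (by norm_num)
    have hc0 : c ≠ 0 := by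
      rintro rfl
      rw [zero_pow (by norm_num)] at hc
      exact div_ne_zero hG3 hg3 hc.symm
    refine ⟨c, hc0, by rw [mul_zero], ?_⟩
    rw [hc]
    field_simp
  by_cases hG3 : G3 = 0
  · -- `G3 = 0`
    subst hG3
    have hg3 : g3 = 0 := by
      have h1 : G2 ^ 3 * g3 ^ 2 = 0 := by rw [← hrel]; ring
      rcases mul_eq_zero.mp h1 with h | h
      · exact absurd (pow_eq_zero_iff (by norm_num) |>.mp h) hG2
      · exact pow_eq_zero_iff (by norm_num) |>.mp h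
    subst hg3
    have hg2 : g2 ≠ 0 := by
      rintro rfl
      exact hD (by ring)
    obtain ⟨c, hc⟩ := IsAlgClosed.exists_pow_nat_eq (G2 / g2) (n := 4) (by norm_num)
    have hc0 : c ≠ 0 := by
      rintro rfl
      rw [zero_pow (by norm_num)] at hc
      exact div_ne_zero hG2 hg2 hc.symm
    refine ⟨c, hc0, ?_, by rw [mul_zero]⟩
    rw [hc]
    field_simp
  -- generic case
  have hg2 : g2 ≠ 0 := by
    rintro rfl
    have h1 : G2 ^ 3 * g3 ^ 2 = 0 := by rw [← hrel]; ring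
    rcases mul_eq_zero.mp h1 with h | h
    · exact hG2 (pow_eq_zero_iff (by norm_num) |>.mp h)
    · have : g3 = 0 := pow_eq_zero_iff (by norm_num) |>.mp h
      subst this
      exact hD (by ring)
  have hg3 : g3 ≠ 0 := by
    rintro rfl
    have h1 : g2 ^ 3 * G3 ^ 2 = 0 := by rw [hrel]; ring
    rcases mul_eq_zero.mp h1 with h | h
    · exact hg2 (pow_eq_zero_iff (by norm_num) |>.mp h)
    · exact hG3 (pow_eq_zero_iff (by norm_num) |>.mp h)
  obtain ⟨c, hc⟩ := IsAlgClosed.exists_pow_nat_eq ((G3 / g3) / (G2 / g2)) (n := 2) (by norm_num)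
  have hc0 : c ≠ 0 := by
    rintro rfl
    rw [zero_pow (by norm_num)] at hc
    exact div_ne_zero (div_ne_zero hG3 hg3) (div_ne_zero hG2 hg2) hc.symm
  have h4 : c ^ 4 = G2 / g2 := by
    have : c ^ 4 = (c ^ 2) ^ 2 := by ring
    rw [this, hc]
    field_simp
    linear_combination hrel
  have h6 : c ^ 6 = G3 / g3 := by
    have : c ^ 6 = (c ^ 2) ^ 3 := by ring
    rw [this, hc]
    field_simp
    linear_combination hrel
  refine ⟨c, hc0, ?_, ?_⟩
  · rw [h4]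
    field_simp
  · rw [h6]
    field_simp

/-- **Uniformisation** (`jfun_surjective`, `jfun_ofTau`, `disc_ne_zero`, `exists_scale_algebra`,
`g₂_scale`, `g₃_scale`). -/
theorem exists_periodPair {a b : ℂ} (h : a ^ 3 - 27 * b ^ 2 ≠ 0) :
    ∃ L : PeriodPair, L.g₂ = a ∧ L.g₃ = b := by
  obtain ⟨τ, hτ⟩ := jfun_surjective (1728 * a ^ 3 / (a ^ 3 - 27 * b ^ 2))
  have h1 := jfun_ofTau τ
  rw [hτ] at h1
  have hj : a ^ 3 * ((ofTau τ).g₂ ^ 3 - 27 * (ofTau τ).g₃ ^ 2) =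
      (ofTau τ).g₂ ^ 3 * (a ^ 3 - 27 * b ^ 2) := by
    field_simp at h1
    linear_combination h1
  obtain ⟨c, hc, e2, e3⟩ := exists_scale_algebra h (disc_ne_zero (ofTau τ)) hj
  exact ⟨scale (ofTau τ) c hc, by rw [g₂_scale, ← e2], by rw [g₃_scale, ← e3]⟩

/-- (`WeierstrassCurve.c_relation`.) -/
theorem exists_isUnif (W : WeierstrassCurve ℂ) (hΔ : W.Δ ≠ 0) : ∃ L : PeriodPair, IsUnif W L := by
  have h : (W.c₄ / 12) ^ 3 - 27 * (W.c₆ / 216) ^ 2 ≠ 0 := by
    have h1 := W.c_relation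
    have : (W.c₄ / 12) ^ 3 - 27 * (W.c₆ / 216) ^ 2 = W.Δ := by
      linear_combination (-1 / 1728 : ℂ) * h1
    rw [this]
    exact hΔ
  obtain ⟨L, h2, h3⟩ := exists_periodPair h
  exact ⟨L, ⟨by rw [h2]; ring, by rw [h3]; ring⟩⟩

end Fermat.Agent.Lib.Unif

end
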