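/-
Lib/Unif (architect helper33): complex uniformisation of elliptic curves and analytic Velu.
File `Order`: a point of prime order is `π (ω₁ / N)` for a suitable oriented basis.
-/
import Fermat.Agent.Lib.Unif.Exists
import Fermat.Agent.Lib.Unif.Basis
import Fermat.Agent.Lib.Unif.Velu.Cyclic

set_option autoImplicit false

noncomputable section

namespace Fermat.Agent.Lib.Unif

open WeierstrassCurve

variable {W : WeierstrassCurve ℂ}

theorem IsUnif.congr {L L' : PeriodPair} (h : IsUnif W L) (hL : L'.lattice = L.lattice) :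
    IsUnif W L' :=
  ⟨by rw [h.c₄, g₂_congr hL], by rw [h.c₆, g₃_congr hL]⟩

theorem piHom_congr_lattice {L L' : PeriodPair} (h : IsUnif W L) (hL : L'.lattice = L.lattice)
    (z : ℂ) : piHom (h.congr hL) z = piHom h z := by
  rw [piHom_apply, piHom_apply]
  by_cases hz : z ∈ L.lattice
  · rw [piW_of_mem h hz, piW_of_mem (h.congr hL) (hL ▸ hz)]
  · have hz' : z ∉ L'.lattice := hL ▸ hz
    rw [piW_of_notMem h hz, piW_of_notMem (h.congr hL) hz']
    have h1 : xc W L' z = xc W L z := by
      simp only [xc, wp_congr_lattice hL]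
    have h2 : yc W L' z = yc W L z := by
      simp only [yc, h1, wp'_congr_lattice hL]
    simp only [h1, h2]

/-- (M1) (`exists_isUnif`, `piHom_surjective`, `exists_basis`.) -/
theorem exists_unif_order (hΔ : W.Δ ≠ 0) {N : ℕ} (hN : N.Prime) {Q : W.toAffine.Point}
    (hQ0 : Q ≠ 0) (hQ : N • Q = 0) :
    ∃ (L : PeriodPair) (h : IsUnif W L), 0 < (L.ω₂ / L.ω₁).im ∧ piHom h (L.ω₁ / N) = Q := by
  obtain ⟨L, h⟩ := exists_isUnif W hΔ
  obtain ⟨z, rfl⟩ := piHom_surjective h Q
  have hz : z ∉ L.lattice := fun hz => hQ0 ((piHom_eq_zero_iff h).mpr hz)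
  have hNz : (N : ℂ) * z ∈ L.lattice := by
    rw [← piHom_eq_zero_iff h, ← nsmul_eq_mul, map_nsmul]
    exact hQ
  obtain ⟨L', hL, hzL, him⟩ := exists_basis L hN hz hNz
  refine ⟨L', h.congr hL, him, ?_⟩
  rw [piHom_congr_lattice h hL, piHom_eq_iff h]
  have := L.lattice.neg_mem hzL
  rwa [neg_sub] at this

end Fermat.Agent.Lib.Unif

end
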