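/-
Lib/Unif (architect helper33): complex uniformisation of elliptic curves and analytic Velu.
File `Main`: EXPORTS over `ℂ`.
-/
import Fermat.Agent.Lib.Unif.Order
import Fermat.Agent.Lib.Unif.Velu.Hom
import Fermat.Agent.Lib.Unif.Velu.Dual

set_option autoImplicit false

noncomputable section

namespace Fermat.Agent.Lib.Unif

open WeierstrassCurve UpperHalfPlane Fermat.Agent.S24

variable {W : WeierstrassCurve ℂ}

/-- (`jfun_of_eq`, `IsUnif.Δ_eq`, `IsUnif.c₄`.) -/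
theorem IsUnif.jfun_mul_Δ {L : PeriodPair} (h : IsUnif W L) (τ : ℍ)
    (hτ : (τ : ℂ) = L.ω₂ / L.ω₁) : jfun τ * W.Δ = W.c₄ ^ 3 := by
  have h1 := jfun_of_eq L τ hτ
  rw [h.Δ_eq, h.c₄, h1]
  ring

/-- **(M3)** the `j`-invariants of `W` and of Velu's quotient are `j τ` and `j (N τ)`
(`exists_unif_order`, `isCyclicOver_divN`, `isUnif_velu`, `IsUnif.jfun_mul_Δ`,
`IsUnif.Δ_ne_zero`). -/
theorem velu_j (hΔ : W.Δ ≠ 0) {N : ℕ} (hN : N.Prime) {Q : W.toAffine.Point}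
    (hQ0 : Q ≠ 0) (hQ : N • Q = 0) :
    ∃ τ τ' : ℍ, (τ' : ℂ) = N * τ ∧ jfun τ * W.Δ = W.c₄ ^ 3 ∧ (veluCurve W Q N).Δ ≠ 0 ∧
      jfun τ' * (veluCurve W Q N).Δ = (veluCurve W Q N).c₄ ^ 3 := by
  have : NeZero N := ⟨hN.ne_zero⟩
  obtain ⟨L, h, him, hQL⟩ := exists_unif_order hΔ hN hQ0 hQ
  have h' : IsUnif (veluCurve W Q N) (divN L N) := by
    have := isUnif_velu h (isCyclicOver_divN L N) hN.pos
    rwa [hQL] at this
  have hNpos : (0 : ℝ) < (N : ℝ) := by exact_mod_cast hN.pos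
  have him' : 0 < ((N : ℂ) * (L.ω₂ / L.ω₁)).im := by
    have e : (N : ℂ) = ((N : ℝ) : ℂ) := by push_cast; rfl
    rw [e, Complex.im_ofReal_mul]
    exact mul_pos hNpos him
  refine ⟨⟨L.ω₂ / L.ω₁, him⟩, ⟨(N : ℂ) * (L.ω₂ / L.ω₁), him'⟩, rfl, h.jfun_mul_Δ _ rfl,
    h'.Δ_ne_zero, h'.jfun_mul_Δ _ ?_⟩
  show (N : ℂ) * (L.ω₂ / L.ω₁) = L.ω₂ / (L.ω₁ / N)
  rw [div_div_eq_mul_div]
  ring

/-- **(M4) + (M5)** Velu's isogeny over `ℂ` and the dual quotient.  `W'` is a variable (equal to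
Velu's curve) in order to avoid casts in the applications.
(`subst`; `exists_unif_order`, `exists_veluHom_lattice` with `L' = divN L N`; for the last clause
`T = π z`, `isCyclicOver_dual`, `isUnif_velu` for `W'`, `g₂_scale`, `g₃_scale`.) -/
theorem exists_veluHom (hΔ : W.Δ ≠ 0) {N : ℕ} (hN : N.Prime) {Q : W.toAffine.Point}
    (hQ0 : Q ≠ 0) (hQ : N • Q = 0) (W' : WeierstrassCurve ℂ) (hW' : W' = veluCurve W Q N) :
    ∃ φ : W.toAffine.Point →+ W'.toAffine.Point, Function.Surjective φ ∧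
      (∀ T, φ T = 0 ↔ T ∈ AddSubgroup.zmultiples Q) ∧
      (∀ T, T ∉ AddSubgroup.zmultiples Q →
        S05.XOnly.xc (φ T) = veluX W Q N T ∧ S05.XOnly.yc (φ T) = veluY W Q N T) ∧
      ∀ T, N • T = 0 → T ∉ AddSubgroup.zmultiples Q →
        (veluCurve W' (φ T) N).c₄ = (N : ℂ) ^ 4 * W.c₄ ∧
        (veluCurve W' (φ T) N).c₆ = (N : ℂ) ^ 6 * W.c₆ := by
  subst hW'
  have : NeZero N := ⟨hN.ne_zero⟩
  obtain ⟨L, h, -, hQL⟩ := exists_unif_order hΔ hN hQ0 hQ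
  subst hQL
  have hc := isCyclicOver_divN L N
  obtain ⟨φ, hφπ, hsurj, hker, hxy⟩ := exists_veluHom_lattice h hc hN.pos
  refine ⟨φ, hsurj, hker, hxy, ?_⟩
  intro T hT hTQ
  obtain ⟨z, rfl⟩ := piHom_surjective h T
  have hz : (N : ℂ) * z ∈ L.lattice := by
    rw [nsmul_piHom, piHom_eq_zero_iff] at hT
    exact hT
  have hz' : z ∉ (divN L N).lattice := by
    intro hmem
    apply hTQ
    rw [← hker, hφπ, piHom_eq_zero_iff]
    exact hmem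
  have hN0 : (N : ℂ) ≠ 0 := Nat.cast_ne_zero.2 hN.ne_zero
  have hd := isCyclicOver_dual L hN hz hz'
  have hu := isUnif_velu (isUnif_velu h hc hN.pos) hd hN.pos
  rw [← hφπ] at hu
  refine ⟨?_, ?_⟩
  · rw [hu.c₄, g₂_scale, h.c₄]
    field_simp
  · rw [hu.c₆, g₃_scale, h.c₆]
    field_simp

end Fermat.Agent.Lib.Unif

end
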