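/-
Lib/Unif (architect helper33): complex uniformisation of elliptic curves and analytic Velu.
File `MapPt`: the map on points induced by a homomorphism of fields, compatibility with Velu's
formulas.  Pure algebra.
-/
import Fermat.Agent.Lib.Unif.Velu.Alg

set_option autoImplicit false

noncomputable section

namespace Fermat.Agent.Lib.Unif

open WeierstrassCurve Fermat.Agent.S05.XOnly

variable {K K' : Type*} [Field K] [Field K'] [DecidableEq K] [DecidableEq K'] (f : K →+* K')
  (W : WeierstrassCurve K)

/-- the underlying function. -/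
def mapFun (P : W.toAffine.Point) : (W.map f).toAffine.Point :=
  Affine.Point.casesOn P 0
    (fun x y h => .some (f x) (f y) ((W.toAffine.map_nonsingular f.injective x y).2 h))

@[simp] theorem mapFun_zero : mapFun f W 0 = 0 := rfl

@[simp] theorem mapFun_some {x y : K} (h : W.toAffine.Nonsingular x y) :
    mapFun f W (.some x y h) =
      .some (f x) (f y) ((W.toAffine.map_nonsingular f.injective x y).2 h) := rfl

/-- (copy the proof of `WeierstrassCurve.Affine.Point.map` in Mathlib, with `map_addX`, `map_addY`,
`map_slope`, `map_negY`.) -/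
theorem mapFun_add (P Q : W.toAffine.Point) :
    mapFun f W (P + Q) = mapFun f W P + mapFun f W Q := by
  rcases P with _ | ⟨x₁, y₁, h₁⟩
  · rw [show (Affine.Point.zero : W.toAffine.Point) = 0 from rfl, zero_add, mapFun_zero, zero_add]
  rcases Q with _ | ⟨x₂, y₂, h₂⟩
  · rw [show (Affine.Point.zero : W.toAffine.Point) = 0 from rfl, add_zero, mapFun_zero, add_zero]
  by_cases hxy : x₁ = x₂ ∧ y₁ = W.toAffine.negY x₂ y₂
  · rw [Affine.Point.add_of_Y_eq hxy.left hxy.right, mapFun_some, mapFun_some,
      Affine.Point.add_of_Y_eq (congr_arg _ hxy.left) (by rw [hxy.right, Affine.map_negY]),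
      mapFun_zero]
  · have hxy' : ¬ (f x₁ = f x₂ ∧ f y₁ = (W.map f).toAffine.negY (f x₂) (f y₂)) := fun h =>
      hxy ⟨f.injective h.1, f.injective (by rw [h.2, Affine.map_negY])⟩
    rw [Affine.Point.add_some hxy, mapFun_some, mapFun_some, mapFun_some,
      Affine.Point.add_some hxy']
    simp only [Affine.map_addX, Affine.map_addY, Affine.map_slope]

/-- the homomorphism on points induced by `f`. -/
def mapPt : W.toAffine.Point →+ (W.map f).toAffine.Point where
  toFun := mapFun f W
  map_zero' := rfl
  map_add' := mapFun_add f W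

theorem mapPt_injective : Function.Injective (mapPt f W) := by
  rintro (_ | ⟨x₁, y₁, h₁⟩) (_ | ⟨x₂, y₂, h₂⟩) h
  · rfl
  · exact absurd h (by intro h'; cases h')
  · exact absurd h (by intro h'; cases h')
  · have h' : (Affine.Point.some (f x₁) (f y₁) ((W.toAffine.map_nonsingular f.injective x₁ y₁).2 h₁) :
        (W.map f).toAffine.Point) =
        .some (f x₂) (f y₂) ((W.toAffine.map_nonsingular f.injective x₂ y₂).2 h₂) := h
    have hx : x₁ = x₂ := f.injective (Affine.Point.some.inj h').1
    have hy : y₁ = y₂ := f.injective (Affine.Point.some.inj h').2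
    subst hx hy
    rfl

theorem xc_mapPt (P : W.toAffine.Point) : xc (mapPt f W P) = f (xc P) := by
  rcases P with _ | ⟨x, y, h⟩
  · exact (map_zero f).symm
  · rfl

theorem yc_mapPt (P : W.toAffine.Point) : yc (mapPt f W P) = f (yc P) := by
  rcases P with _ | ⟨x, y, h⟩
  · exact (map_zero f).symm
  · rfl

/-- a point of the target with coordinates in the image of `f` comes from the source. -/
theorem exists_mapPt_eq {P' : (W.map f).toAffine.Point} {x y : K} (hP' : P' ≠ 0)
    (hx : xc P' = f x) (hy : yc P' = f y) :
    ∃ P : W.toAffine.Point, mapPt f W P = P' ∧ P ≠ 0 ∧ xc P = x ∧ yc P = y := by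
  rcases P' with _ | ⟨x', y', h'⟩
  · exact absurd rfl hP'
  · have hx' : x' = f x := hx
    have hy' : y' = f y := hy
    subst hx' hy'
    have h : W.toAffine.Nonsingular x y := (W.toAffine.map_nonsingular f.injective x y).1 h'
    exact ⟨.some x y h, rfl, Affine.Point.some_ne_zero h, rfl, rfl⟩

variable (Q : W.toAffine.Point) (N : ℕ)

theorem veluT_map : veluT (W.map f) (mapPt f W Q) N = f (veluT W Q N) := by
  simp only [veluT, map_sum, ← map_nsmul, xc_mapPt, yc_mapPt]
  refine Finset.sum_congr rfl fun i _ => ?_
  simp only [map_sub, map_add, map_mul, map_pow, map_ofNat, WeierstrassCurve.map_a₁,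
    WeierstrassCurve.map_a₂, WeierstrassCurve.map_a₄]

theorem veluU_map : veluU (W.map f) (mapPt f W Q) N = f (veluU W Q N) := by
  simp only [veluU, map_sum, ← map_nsmul, xc_mapPt, yc_mapPt]
  refine Finset.sum_congr rfl fun i _ => ?_
  simp only [map_sub, map_add, map_mul, map_pow, map_ofNat, WeierstrassCurve.map_a₁,
    WeierstrassCurve.map_a₂, WeierstrassCurve.map_a₃, WeierstrassCurve.map_a₄,
    WeierstrassCurve.map_a₆]

theorem veluCurve_map : veluCurve (W.map f) (mapPt f W Q) N = (veluCurve W Q N).map f := by
  ext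
  · rfl
  · rfl
  · rfl
  · simp only [veluCurve_a₄, WeierstrassCurve.map_a₄, veluT_map, map_sub, map_mul, map_ofNat]
  · simp only [veluCurve_a₆, WeierstrassCurve.map_a₆, WeierstrassCurve.map_b₂, veluT_map,
      veluU_map, map_sub, map_mul, map_ofNat]

theorem veluX_map (T : W.toAffine.Point) :
    veluX (W.map f) (mapPt f W Q) N (mapPt f W T) = f (veluX W Q N T) := by
  simp only [veluX, map_add, map_sum, map_sub, ← map_nsmul, xc_mapPt]
  simp only [← map_add (mapPt f W), xc_mapPt]

theorem veluY_map (T : W.toAffine.Point) :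
    veluY (W.map f) (mapPt f W Q) N (mapPt f W T) = f (veluY W Q N T) := by
  simp only [veluY, map_add, map_sum, map_sub, ← map_nsmul, yc_mapPt]
  simp only [← map_add (mapPt f W), yc_mapPt]

end Fermat.Agent.Lib.Unif

end
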