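/-
Lib/Unif (architect helper33): complex uniformisation of elliptic curves and analytic Velu.
File `Descent`: EXPORTS over a field `K` embedded in `ℂ` (e.g. `K = ℚ̄`).
-/
import Fermat.Agent.Lib.Unif.Main
import Fermat.Agent.Lib.Unif.MapPt

set_option autoImplicit false

noncomputable section

namespace Fermat.Agent.Lib.Unif

open WeierstrassCurve UpperHalfPlane Fermat.Agent.S24

/-- abstract: lifting a homomorphism through an injective one. -/
theorem exists_lift_hom {A B C : Type*} [AddCommGroup A] [AddCommGroup B] [AddCommGroup C]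
    (i : B →+ C) (hi : Function.Injective i) (g : A →+ C) (hg : ∀ a, ∃ b, i b = g a) :
    ∃ φ : A →+ B, ∀ a, i (φ a) = g a := by
  choose f hf using hg
  refine ⟨AddMonoidHom.mk' f fun a b => hi ?_, hf⟩
  rw [map_add, hf, hf, hf, map_add]

variable {K : Type*} [Field K] [DecidableEq K] (ι : K →+* ℂ) {W : WeierstrassCurve K}

/-- `mapPt` reflects membership in the cyclic subgroup generated by `Q`. -/
theorem descent_mapPt_mem_zmultiples_iff (Q T : W.toAffine.Point) :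
    mapPt ι W T ∈ AddSubgroup.zmultiples (mapPt ι W Q) ↔ T ∈ AddSubgroup.zmultiples Q := by
  constructor
  · rintro ⟨k, hk⟩
    refine ⟨k, mapPt_injective ι W ?_⟩
    rw [← hk]
    exact map_zsmul _ _ _
  · rintro ⟨k, rfl⟩
    exact ⟨k, (map_zsmul (mapPt ι W) k Q).symm⟩

/-- **(K3)** (`velu_j` for `W.map ι`, `mapPt ι W Q`; `veluCurve_map`, `WeierstrassCurve.map_Δ`,
`map_c₄`.) -/
theorem velu_j_of_embedding (hΔ : W.Δ ≠ 0) {N : ℕ} (hN : N.Prime) {Q : W.toAffine.Point}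
    (hQ0 : Q ≠ 0) (hQ : N • Q = 0) :
    ∃ τ τ' : ℍ, (τ' : ℂ) = N * τ ∧ jfun τ * ι W.Δ = ι W.c₄ ^ 3 ∧ (veluCurve W Q N).Δ ≠ 0 ∧
      jfun τ' * ι (veluCurve W Q N).Δ = ι (veluCurve W Q N).c₄ ^ 3 := by
  have hΔ' : (W.map ι).Δ ≠ 0 := by
    rw [WeierstrassCurve.map_Δ]
    exact (map_ne_zero ι).2 hΔ
  have hQ0' : mapPt ι W Q ≠ 0 := fun h => hQ0 (mapPt_injective ι W (by rw [h, map_zero]))
  have hQ' : N • mapPt ι W Q = 0 := by rw [← map_nsmul, hQ, map_zero]
  obtain ⟨τ, τ', h1, h2, h3, h4⟩ := velu_j hΔ' hN hQ0' hQ'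
  rw [veluCurve_map, WeierstrassCurve.map_Δ] at h3
  rw [veluCurve_map, WeierstrassCurve.map_Δ, WeierstrassCurve.map_c₄] at h4
  rw [WeierstrassCurve.map_Δ, WeierstrassCurve.map_c₄] at h2
  exact ⟨τ, τ', h1, h2, fun h => h3 (by rw [h, map_zero]), h4⟩

include ι in
/-- **(K4) + (K5)** Velu's isogeny on `K`-points.
(`exists_veluHom` for `W.map ι`, `mapPt ι W Q`, `W' := (veluCurve W Q N).map ι`,
`hW' := (veluCurve_map ..).symm`; `exists_lift_hom` with `i = mapPt ι (veluCurve W Q N)`,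
`g = φ_ℂ ∘ mapPt ι W`; `exists_mapPt_eq`, `veluX_map`, `veluY_map`.) -/
theorem exists_veluHom_of_embedding (hΔ : W.Δ ≠ 0) {N : ℕ} (hN : N.Prime)
    {Q : W.toAffine.Point} (hQ0 : Q ≠ 0) (hQ : N • Q = 0) :
    ∃ φ : W.toAffine.Point →+ (veluCurve W Q N).toAffine.Point,
      (∀ T, φ T = 0 ↔ T ∈ AddSubgroup.zmultiples Q) ∧
      (∀ T, T ∉ AddSubgroup.zmultiples Q →
        S05.XOnly.xc (φ T) = veluX W Q N T ∧ S05.XOnly.yc (φ T) = veluY W Q N T) ∧
      ∀ T, N • T = 0 → T ∉ AddSubgroup.zmultiples Q →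
        (veluCurve (veluCurve W Q N) (φ T) N).c₄ = (N : K) ^ 4 * W.c₄ ∧
        (veluCurve (veluCurve W Q N) (φ T) N).c₆ = (N : K) ^ 6 * W.c₆ := by
  have hΔ' : (W.map ι).Δ ≠ 0 := by
    rw [WeierstrassCurve.map_Δ]
    exact (map_ne_zero ι).2 hΔ
  have hQ0' : mapPt ι W Q ≠ 0 := fun h => hQ0 (mapPt_injective ι W (by rw [h, map_zero]))
  have hQ' : N • mapPt ι W Q = 0 := by rw [← map_nsmul, hQ, map_zero]
  obtain ⟨φC, -, hker, hxy, hdual⟩ := exists_veluHom hΔ' hN hQ0' hQ'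
    ((veluCurve W Q N).map ι) (veluCurve_map ι W Q N).symm
  have hg : ∀ T : W.toAffine.Point, ∃ b : (veluCurve W Q N).toAffine.Point,
      mapPt ι (veluCurve W Q N) b = (φC.comp (mapPt ι W)) T := by
    intro T
    by_cases hT : T ∈ AddSubgroup.zmultiples Q
    · refine ⟨0, ?_⟩
      rw [map_zero, AddMonoidHom.comp_apply,
        (hker _).2 ((descent_mapPt_mem_zmultiples_iff ι Q T).2 hT)]
    · have hT' : mapPt ι W T ∉ AddSubgroup.zmultiples (mapPt ι W Q) := fun h =>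
        hT ((descent_mapPt_mem_zmultiples_iff ι Q T).1 h)
      obtain ⟨hx, hy⟩ := hxy _ hT'
      rw [veluX_map] at hx
      rw [veluY_map] at hy
      obtain ⟨P, hP, -⟩ := exists_mapPt_eq ι (veluCurve W Q N)
        (fun h => hT' ((hker _).1 h)) hx hy
      exact ⟨P, hP⟩
  obtain ⟨φ, hφ⟩ := exists_lift_hom (mapPt ι (veluCurve W Q N))
    (mapPt_injective ι (veluCurve W Q N)) (φC.comp (mapPt ι W)) hg
  have hφ' : ∀ T, mapPt ι (veluCurve W Q N) (φ T) = φC (mapPt ι W T) := hφ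
  refine ⟨φ, fun T => ?_, fun T hT => ?_, fun T hNT hT => ?_⟩
  · rw [← descent_mapPt_mem_zmultiples_iff ι Q T, ← hker, ← hφ']
    constructor
    · intro h
      rw [h, map_zero]
    · intro h
      exact mapPt_injective ι (veluCurve W Q N) (by rw [h, map_zero])
  · have hT' : mapPt ι W T ∉ AddSubgroup.zmultiples (mapPt ι W Q) := fun h =>
      hT ((descent_mapPt_mem_zmultiples_iff ι Q T).1 h)
    obtain ⟨hx, hy⟩ := hxy _ hT'
    rw [veluX_map, ← hφ', xc_mapPt] at hx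
    rw [veluY_map, ← hφ', yc_mapPt] at hy
    exact ⟨ι.injective hx, ι.injective hy⟩
  · have hT' : mapPt ι W T ∉ AddSubgroup.zmultiples (mapPt ι W Q) := fun h =>
      hT ((descent_mapPt_mem_zmultiples_iff ι Q T).1 h)
    have hNT' : N • mapPt ι W T = 0 := by rw [← map_nsmul, hNT, map_zero]
    obtain ⟨h4, h6⟩ := hdual _ hNT' hT'
    rw [← hφ', veluCurve_map, WeierstrassCurve.map_c₄, WeierstrassCurve.map_c₄] at h4
    rw [← hφ', veluCurve_map, WeierstrassCurve.map_c₆, WeierstrassCurve.map_c₆] at h6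
    constructor
    · apply ι.injective
      rw [h4, map_mul, map_pow, map_natCast]
    · apply ι.injective
      rw [h6, map_mul, map_pow, map_natCast]

end Fermat.Agent.Lib.Unif

end
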