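/-
Lib/Unif (architect helper33): complex uniformisation of elliptic curves and analytic Velu.
File `Disc`: the discriminant of a lattice and the modular discriminant.
-/
import Fermat.Agent.Lib.Unif.JInv

set_option autoImplicit false

noncomputable section

namespace Fermat.Agent.Lib.Unif

open Filter Topology UpperHalfPlane ModularForm EisensteinSeries Fermat.Agent.S24
open scoped Real

/-- (`g₂_ofTau`, `g₃_ofTau`, `ModularForm.discriminant_eq_E₄_cube_sub_E₆_sq` or `S24.jfun_eq`.) -/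
theorem disc_ofTau (τ : ℍ) :
    (ofTau τ).g₂ ^ 3 - 27 * (ofTau τ).g₃ ^ 2 = (2 * (π : ℂ)) ^ 12 * discriminant τ := by
  have hΔ : discriminant τ ≠ 0 := discriminant_ne_zero τ
  have h1 : jfun τ * discriminant τ = E₄ τ ^ 3 := by
    unfold jfun
    exact div_mul_cancel₀ _ hΔ
  have h2 : (jfun τ - 1728) * discriminant τ = E₆ τ ^ 2 := by
    rw [jfun_eq, div_mul_cancel₀ _ hΔ]
  rw [g₂_ofTau, g₃_ofTau]
  linear_combination (-(64 / 27 * (π : ℂ) ^ 12)) * h1 + 64 / 27 * (π : ℂ) ^ 12 * h2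

/-- (`L` has the same periods as `scale (ofTau τ) L.ω₁`; `g₂_scale`, `g₃_scale`.) -/
theorem disc_of_eq (L : PeriodPair) (τ : ℍ) (hτ : (τ : ℂ) = L.ω₂ / L.ω₁) :
    L.ω₁ ^ 12 * (L.g₂ ^ 3 - 27 * L.g₃ ^ 2) = (2 * (π : ℂ)) ^ 12 * discriminant τ := by
  have hω : L.ω₁ ≠ 0 := by
    intro h
    rw [h, div_zero] at hτ
    have h1 := τ.im_pos
    have h2 : (τ : ℂ).im = 0 := by rw [hτ]; rfl
    rw [UpperHalfPlane.coe_im] at h2
    exact h1.ne' h2
  have hL : L = scale (ofTau τ) L.ω₁ hω := by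
    obtain ⟨w₁, w₂, hi⟩ := L
    have e1 : w₁ * (1 : ℂ) = w₁ := mul_one _
    have e2 : w₁ * (τ : ℂ) = w₂ := by
      rw [hτ]
      exact mul_div_cancel₀ _ hω
    simp only [scale, ofTau, e1, e2]
  have h := disc_ofTau τ
  have e2 : L.g₂ = (L.ω₁ ^ 4)⁻¹ * (ofTau τ).g₂ := by
    conv_lhs => rw [hL]
    exact g₂_scale _ hω
  have e3 : L.g₃ = (L.ω₁ ^ 6)⁻¹ * (ofTau τ).g₃ := by
    conv_lhs => rw [hL]
    exact g₃_scale _ hω
  rw [e2, e3, ← h]
  field_simp

end Fermat.Agent.Lib.Unif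

end
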