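/-
Lib/Unif (architect helper33): complex uniformisation of elliptic curves and analytic Velu.
File `Main2`: further EXPORTS over `ℂ` (modular discriminant, product formula).
-/
import Fermat.Agent.Lib.Unif.Main
import Fermat.Agent.Lib.Unif.Disc
import Fermat.Agent.S15.Dict.PF.Main

set_option autoImplicit false

noncomputable section

namespace Fermat.Agent.Lib.Unif

open WeierstrassCurve UpperHalfPlane ModularForm Fermat.Agent.S24

variable {W : WeierstrassCurve ℂ}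

/-- same as `velu_j`, with the comparison of the modular discriminants
(`exists_unif_order`, `isCyclicOver_divN`, `isUnif_velu`, `IsUnif.jfun_mul_Δ`, `IsUnif.Δ_eq`,
`disc_of_eq` for `L` and for `divN L N`, whose first period is `L.ω₁ / N`). -/
theorem velu_j_disc (hΔ : W.Δ ≠ 0) {N : ℕ} (hN : N.Prime) {Q : W.toAffine.Point}
    (hQ0 : Q ≠ 0) (hQ : N • Q = 0) :
    ∃ τ τ' : ℍ, (τ' : ℂ) = N * τ ∧ jfun τ * W.Δ = W.c₄ ^ 3 ∧ (veluCurve W Q N).Δ ≠ 0 ∧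
      jfun τ' * (veluCurve W Q N).Δ = (veluCurve W Q N).c₄ ^ 3 ∧
      discriminant τ * (veluCurve W Q N).Δ = (N : ℂ) ^ 12 * discriminant τ' * W.Δ := by
  have : NeZero N := ⟨hN.ne_zero⟩
  obtain ⟨L, h, him, hQL⟩ := exists_unif_order hΔ hN hQ0 hQ
  have h' : IsUnif (veluCurve W Q N) (divN L N) := by
    have := isUnif_velu h (isCyclicOver_divN L N) hN.pos
    rwa [hQL] at this
  have hNpos : (0 : ℝ) < (N : ℝ) := by exact_mod_cast hN.pos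
  have hN0 : (N : ℂ) ≠ 0 := Nat.cast_ne_zero.2 hN.ne_zero
  have him' : 0 < ((N : ℂ) * (L.ω₂ / L.ω₁)).im := by
    have e : (N : ℂ) = ((N : ℝ) : ℂ) := by push_cast; rfl
    rw [e, Complex.im_ofReal_mul]
    exact mul_pos hNpos him
  have hτ' : (N : ℂ) * (L.ω₂ / L.ω₁) = (divN L N).ω₂ / (divN L N).ω₁ := by
    show (N : ℂ) * (L.ω₂ / L.ω₁) = L.ω₂ / (L.ω₁ / N)
    rw [div_div_eq_mul_div]
    ring
  refine ⟨⟨L.ω₂ / L.ω₁, him⟩, ⟨(N : ℂ) * (L.ω₂ / L.ω₁), him'⟩, rfl, h.jfun_mul_Δ _ rfl,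
    h'.Δ_ne_zero, h'.jfun_mul_Δ _ hτ', ?_⟩
  have h1 := disc_of_eq L ⟨L.ω₂ / L.ω₁, him⟩ rfl
  have h2 := disc_of_eq (divN L N) ⟨(N : ℂ) * (L.ω₂ / L.ω₁), him'⟩ hτ'
  have hω : (divN L N).ω₁ = L.ω₁ / N := rfl
  rw [hω, ← h'.Δ_eq] at h2
  rw [← h.Δ_eq] at h1
  have h3 : (N : ℂ) ^ 12 * (L.ω₁ / N) ^ 12 = L.ω₁ ^ 12 := by
    rw [← mul_pow, mul_div_cancel₀ _ hN0]
  have hP : (2 * (Real.pi : ℂ)) ^ 12 ≠ 0 :=
    pow_ne_zero _ (mul_ne_zero two_ne_zero (Complex.ofReal_ne_zero.2 Real.pi_ne_zero))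
  apply mul_left_cancel₀ hP
  linear_combination (-(veluCurve W Q N).Δ) * h1 + (N : ℂ) ^ 12 * W.Δ * h2
    - W.Δ * (veluCurve W Q N).Δ * h3

/-- **product formula** in terms of the curve
(`S15.Dict.PF.prod_formula`, `exists_unif_order`, `isCyclicOver_divN`, `isUnif_velu`, `IsUnif.Δ_eq`,
`psi_piHom`, `nsmul_piHom`). -/
theorem velu_Δ_prod (hΔ : W.Δ ≠ 0) {N : ℕ} (hN : N.Prime) (hodd : Odd N) {Q : W.toAffine.Point}
    (hQ0 : Q ≠ 0) (hQ : N • Q = 0) :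
    (veluCurve W Q N).Δ * ∏ i ∈ Finset.Ico 1 N,
      (2 * S05.XOnly.yc (i • Q) + W.a₁ * S05.XOnly.xc (i • Q) + W.a₃) ^ 4 = W.Δ ^ N := by
  have : NeZero N := ⟨hN.ne_zero⟩
  obtain ⟨L, h, -, hQL⟩ := exists_unif_order hΔ hN hQ0 hQ
  subst hQL
  have hc := isCyclicOver_divN L N
  have h' : IsUnif (veluCurve W (piHom h (L.ω₁ / N)) N) (divN L N) := isUnif_velu h hc hN.pos
  have key := S15.Dict.PF.prod_formula L (divN L N) N hodd (L.ω₁ / N) hc.mem hc.ord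
  rw [S15.Dict.PF.disc, S15.Dict.PF.disc, ← h'.Δ_eq, ← h.Δ_eq] at key
  rw [← key]
  congr 1
  refine Finset.prod_congr rfl fun i hi => ?_
  rw [nsmul_piHom, psi_piHom h (hc.mul_notMem hi)]

end Fermat.Agent.Lib.Unif

end
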