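/-
Lib/Unif (architect helper33): complex uniformisation of elliptic curves and analytic Velu.
File `Descent2`: further EXPORTS over a field `K` embedded in `ℂ`.
-/
import Fermat.Agent.Lib.Unif.Main2
import Fermat.Agent.Lib.Unif.MapPt

set_option autoImplicit false

noncomputable section

namespace Fermat.Agent.Lib.Unif

open WeierstrassCurve UpperHalfPlane ModularForm Fermat.Agent.S24

variable {K : Type*} [Field K] [DecidableEq K] (ι : K →+* ℂ) {W : WeierstrassCurve K}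

/-- (`velu_j_disc` for `W.map ι`, `mapPt ι W Q`; `veluCurve_map`, `WeierstrassCurve.map_Δ`,
`map_c₄`.) -/
theorem velu_j_disc_of_embedding (hΔ : W.Δ ≠ 0) {N : ℕ} (hN : N.Prime) {Q : W.toAffine.Point}
    (hQ0 : Q ≠ 0) (hQ : N • Q = 0) :
    ∃ τ τ' : ℍ, (τ' : ℂ) = N * τ ∧ jfun τ * ι W.Δ = ι W.c₄ ^ 3 ∧ (veluCurve W Q N).Δ ≠ 0 ∧
      jfun τ' * ι (veluCurve W Q N).Δ = ι (veluCurve W Q N).c₄ ^ 3 ∧
      discriminant τ * ι (veluCurve W Q N).Δ = (N : ℂ) ^ 12 * discriminant τ' * ι W.Δ := by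
  have hΔ' : (W.map ι).Δ ≠ 0 := by
    rw [WeierstrassCurve.map_Δ]
    exact (map_ne_zero ι).2 hΔ
  have hQ0' : mapPt ι W Q ≠ 0 := fun h => hQ0 (mapPt_injective ι W (by rw [h, map_zero]))
  have hQ' : N • mapPt ι W Q = 0 := by rw [← map_nsmul, hQ, map_zero]
  obtain ⟨τ, τ', h1, h2, h3, h4, h5⟩ := velu_j_disc hΔ' hN hQ0' hQ'
  rw [veluCurve_map, WeierstrassCurve.map_Δ] at h3
  rw [veluCurve_map, WeierstrassCurve.map_Δ, WeierstrassCurve.map_c₄] at h4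
  rw [WeierstrassCurve.map_Δ, WeierstrassCurve.map_c₄] at h2
  rw [veluCurve_map, WeierstrassCurve.map_Δ, WeierstrassCurve.map_Δ] at h5
  exact ⟨τ, τ', h1, h2, fun h => h3 (by rw [h, map_zero]), h4, h5⟩

include ι in
/-- (`velu_Δ_prod` for `W.map ι`; `ι` is injective; `xc_mapPt`, `yc_mapPt`, `map_nsmul`.) -/
theorem velu_Δ_prod_of_embedding (hΔ : W.Δ ≠ 0) {N : ℕ} (hN : N.Prime) (hodd : Odd N)
    {Q : W.toAffine.Point} (hQ0 : Q ≠ 0) (hQ : N • Q = 0) :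
    (veluCurve W Q N).Δ * ∏ i ∈ Finset.Ico 1 N,
      (2 * S05.XOnly.yc (i • Q) + W.a₁ * S05.XOnly.xc (i • Q) + W.a₃) ^ 4 = W.Δ ^ N := by
  have hΔ' : (W.map ι).Δ ≠ 0 := by
    rw [WeierstrassCurve.map_Δ]
    exact (map_ne_zero ι).2 hΔ
  have hQ0' : mapPt ι W Q ≠ 0 := fun h => hQ0 (mapPt_injective ι W (by rw [h, map_zero]))
  have hQ' : N • mapPt ι W Q = 0 := by rw [← map_nsmul, hQ, map_zero]
  have key := velu_Δ_prod hΔ' hN hodd hQ0' hQ'
  apply ι.injective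
  rw [veluCurve_map, WeierstrassCurve.map_Δ, WeierstrassCurve.map_Δ] at key
  rw [map_mul, map_prod, map_pow, ← key]
  congr 1
  refine Finset.prod_congr rfl fun i _ => ?_
  rw [← map_nsmul, xc_mapPt, yc_mapPt, WeierstrassCurve.map_a₁, WeierstrassCurve.map_a₃]
  simp only [map_pow, map_add, map_mul, map_ofNat]

end Fermat.Agent.Lib.Unif

end
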